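import Fermat.Agent.S40x.Geo.G4Glue

/-!
# P-S44, GEO: from the conclusion of `C2/AsmMain.c2_main` to a contradiction with `hnew` (helper28)

`c2_main` (block C2, route OMEGA, helper90) outputs an existential package
`∃ f' qf', hqf' ∧ hc0' ∧ hli' ∧ hspan' ∧ (LinearIndependent k (reductions)) ∧ ∃ c g, g = ∑ .. ∧ g ≠ 0 ∧
∀ ℓ [NeZero ℓ], ℓ.Prime → ¬ ℓ ∣ Mh * p → heckeT ℓ g = C (a ℓ) * g`.  Here:

* `linearIndependent_zmod_of_field` : independence of the reductions over a field `k` of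
  characteristic `p` implies independence over `ZMod p` (the `hsat` of `QSeriesRat` / `NewKill`);
* `false_of_c2_main_output` : the package above, VERBATIM, for `a ℓ = thetaVal θ ℓ` and a NEW
  character `θ` of level `M' p`, is contradictory;
* `hG4_of_c2_main` : the consumer hypothesis `hG4` of `Geo/Main.geo_goodLevel` from "every
  `x ∈ V̂ ∩ X^f` outside `K_p` has the package".
-/

set_option autoImplicit false
set_option linter.unusedSectionVars false
set_option linter.style.haveILetI false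

noncomputable section

namespace Fermat.Agent.S40x.Geo.C2Bridge

open ModularCurve AlgebraicCurve CuspForm CongruenceSubgroup UpperHalfPlane
open Fermat.Agent.Gateway.S31Red
open Fermat.Agent.S33x.KummerPn
open Fermat.Agent.S40x.Geo.Vocab Fermat.Agent.S40x.Level.G0
open Fermat.Agent.S40x.A.QSeriesSpan Fermat.Agent.S40x.Geo.G4Glue

local notation "Qb" => AlgebraicClosure ℚ

/-- Independence of the reduced `q`-expansions over a field of characteristic `p` implies their
independence over the prime field. -/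
theorem linearIndependent_zmod_of_field {p : ℕ} [Fact p.Prime] {k : Type*} [Field k] [CharP k p]
    {r : ℕ} (qf : Fin r → PowerSeries ℤ)
    (h : LinearIndependent k (fun j => (qf j).map (Int.castRingHom k))) :
    LinearIndependent (ZMod p) (fun j => (qf j).map (Int.castRingHom (ZMod p))) := by
  classical
  rw [Fintype.linearIndependent_iff] at h ⊢
  intro c hc j
  let φ : ZMod p →+* k := ZMod.castHom (dvd_refl p) k
  have hφ : Function.Injective φ := φ.injective
  have hmap : ∀ i, PowerSeries.map φ ((qf i).map (Int.castRingHom (ZMod p))) =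
      (qf i).map (Int.castRingHom k) := by
    intro i
    ext n
    simp only [PowerSeries.coeff_map]
    simp
  have h1 : ∑ i, φ (c i) • (qf i).map (Int.castRingHom k) = 0 := by
    have h2 := congrArg (PowerSeries.map φ) hc
    rw [map_zero, map_sum] at h2
    rw [← h2]
    refine Finset.sum_congr rfl fun i _ => ?_
    rw [← hmap i]
    ext n
    simp only [PowerSeries.coeff_map, PowerSeries.coeff_smul, smul_eq_mul, map_mul]
  have h3 := h (fun i => φ (c i)) h1 j
  exact hφ (by rw [h3, map_zero])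

/-- **The conclusion of `c2_main` contradicts `hnew`.**  The hypothesis `hout` is the conclusion of
`C2/AsmMain.c2_main` verbatim (for any `r`), with the eigenvalues `a ℓ = thetaVal θ ℓ`. -/
theorem false_of_c2_main_output {M' Mh p : ℕ} [NeZero M'] [NeZero p] (hp : p.Prime)
    (S : Finset ℕ) (hNS : ∀ q : ℕ, q.Prime → q ∣ M' * p → q ∈ S)
    (hSMh : ∀ l : ℕ, l.Prime → l ∉ S → ¬ l ∣ Mh * p)
    (θ : heckeAlgebra (M' * p) 2 (↑S : Set ℕ) →+* ZMod p)
    (hnew : ∃ h : heckeAlgebra (M' * p) 2 (↑S : Set ℕ), θ h ≠ 0 ∧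
      Fermat.Agent.S35x.levelHom (N := M') (q := p) (S := (↑S : Set ℕ))
        (fun q hq hqN => Finset.mem_coe.mpr (hNS q hq hqN)) h = 0)
    {k : Type} [Field k] [CharP k p] {r : ℕ}
    (hout : ∃ (f' : Fin r → CuspForm (Gamma0 M') 2) (qf' : Fin r → PowerSeries ℤ),
      (∀ j, qExpansion 1 (f' j) = (qf' j).map (Int.castRingHom ℂ)) ∧
      (∀ j, PowerSeries.constantCoeff (qf' j) = 0) ∧
      LinearIndependent ℂ f' ∧ Submodule.span ℂ (Set.range f') = ⊤ ∧
      LinearIndependent k (fun j => (qf' j).map (Int.castRingHom k)) ∧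
      ∃ (c : Fin r → k) (g : LaurentSeries k),
        g = ∑ j, HahnSeries.C (c j) *
          HahnSeries.ofPowerSeries ℤ k ((qf' j).map (Int.castRingHom k)) ∧
        g ≠ 0 ∧
        ∀ (ℓ : ℕ) [NeZero ℓ], ℓ.Prime → ¬ ℓ ∣ Mh * p →
          Fermat.Agent.S40x.C2.DlogHecke.heckeT ℓ g =
            HahnSeries.C ((((thetaVal θ ℓ : ℕ) : ℤ) : ℤ) : k) * g) : False := by
  haveI : Fact p.Prime := ⟨hp⟩
  obtain ⟨f', qf', hqf', -, -, -, hsatk, c, g, hg, hg0, heig⟩ := hout
  refine Fermat.Agent.S40x.A.NewKill.false_of_new_of_qseries hp S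
    (fun q hq hqN => Finset.mem_coe.mpr (hNS q hq hqN)) θ hnew
    (fun l => ((thetaVal θ l : ℕ) : ℤ)) (fun l hl hlN hlS => ?_) f' qf' hqf'
    (linearIndependent_zmod_of_field qf' hsatk) c g hg hg0 (fun l hl hlM hlS => ?_)
  · rw [Int.cast_natCast, thetaVal_cast θ hl hlN hlS]
  · haveI : NeZero l := ⟨hl.ne_zero⟩
    exact heig l hl (hSMh l hl (fun h => hlS (Finset.mem_coe.mpr h)))

/-- **`hG4` of `Geo/Main.geo_goodLevel` from `c2_main`.**  `hC2` asks, for every class of `V̂` in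
`X^f` outside `K_p`, the conclusion of `c2_main` at `a ℓ = thetaVal θ ℓ`. -/
theorem hG4_of_c2_main {M' M₀ p : ℕ} [NeZero M'] [NeZero M₀] [NeZero p] (hp : p.Prime)
    (hpM : ¬ p ∣ M₀) (B : ValuationSubring Qb) (hB : B.LiesOverPrime p) (S : Finset ℕ)
    (hNS : ∀ q : ℕ, q.Prime → q ∣ M' * p → q ∈ S)
    (hSM₀ : ∀ l : ℕ, l.Prime → l ∉ S → ¬ l ∣ M₀ * p)
    (θ : heckeAlgebra (M' * p) 2 (↑S : Set ℕ) →+* ZMod p)
    (hnew : ∃ h : heckeAlgebra (M' * p) 2 (↑S : Set ℕ), θ h ≠ 0 ∧
      Fermat.Agent.S35x.levelHom (N := M') (q := p) (S := (↑S : Set ℕ))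
        (fun q hq hqN => Finset.mem_coe.mpr (hNS q hq hqN)) h = 0)
    {k : Type} [Field k] [CharP k p] {r : ℕ}
    (V : AddSubgroup (JTors (M₀ * p) (p ^ 1)))
    (hC2 : ∀ x ∈ V, x ∈ XfTors M₀ p hp hpM B hB → x ∉ KmTors M₀ p hp hpM B hB (p ^ 1) →
      ∃ (f' : Fin r → CuspForm (Gamma0 M') 2) (qf' : Fin r → PowerSeries ℤ),
        (∀ j, qExpansion 1 (f' j) = (qf' j).map (Int.castRingHom ℂ)) ∧
        (∀ j, PowerSeries.constantCoeff (qf' j) = 0) ∧
        LinearIndependent ℂ f' ∧ Submodule.span ℂ (Set.range f') = ⊤ ∧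
        LinearIndependent k (fun j => (qf' j).map (Int.castRingHom k)) ∧
        ∃ (c : Fin r → k) (g : LaurentSeries k),
          g = ∑ j, HahnSeries.C (c j) *
            HahnSeries.ofPowerSeries ℤ k ((qf' j).map (Int.castRingHom k)) ∧
          g ≠ 0 ∧
          ∀ (ℓ : ℕ) [NeZero ℓ], ℓ.Prime → ¬ ℓ ∣ M₀ * p →
            Fermat.Agent.S40x.C2.DlogHecke.heckeT ℓ g =
              HahnSeries.C ((((thetaVal θ ℓ : ℕ) : ℤ) : ℤ) : k) * g) :
    ∀ x ∈ V, x ∈ XfTors M₀ p hp hpM B hB → x ∈ KmTors M₀ p hp hpM B hB (p ^ 1) := by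
  intro x hxV hxf
  by_contra hxK
  exact false_of_c2_main_output hp S hNS hSM₀ θ hnew (hC2 x hxV hxf hxK)

end Fermat.Agent.S40x.Geo.C2Bridge
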