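import Fermat.Agent.S40x.Geo.Final

/-!
# P-S44, GEO: `LeafGEO'` from the three blocks, VERSION 2 of the context (helper21)

Same as `Geo/Final.lean`, with a RICHER context `Ctx2` (so the block propositions `BlockC3'`,
`BlockDIAG'`, `BlockC2'` are WEAKER, i.e. easier to prove): besides the fields of `Final.Ctx`, `Ctx2`
records that the pair `(V̂, L̂)` at the good level `M₀ p` is the pull-back `π^*` of a pair `(V₀, L₀)` at
the level `M' p`, which has the local shape and satisfies the eigen-relations at the level `M' p`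
(`descends`).  Block C2 needs this (the Kummer functions of the classes of `V̂` come from the level
`M' p`, so that their reductions lie in `Fk k M'`).

A proof of an old block proposition gives the new one (`blockC3'_of_blockC3`, ...).
Main result: `leafGEO'_of_blocks' : BlockC3' nodeInf nodeZero → BlockDIAG' nodeInf nodeZero →
BlockC2' → S44SkeletonV2.LeafGEO'`.
-/

set_option autoImplicit false
set_option linter.unusedSectionVars false
set_option linter.unusedVariables false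
set_option linter.style.haveILetI false

noncomputable section

namespace Fermat.Agent.S40x.Geo.FinalV2

open CuspForm ModularCurve AlgebraicCurve
open Fermat.Agent.Gateway.S31Red
open Fermat.Agent.S33x.KummerPn
open Fermat.Agent.S33x.Consumer.LevelTransport
open Fermat.Agent.S40x.Geo.Vocab Fermat.Agent.S40x.Geo.Main Fermat.Agent.S40x.Geo.Final
open Fermat.Agent.S40x.Level.G0

local notation "Qb" => AlgebraicClosure ℚ
local notation "Γℚ" => (AlgebraicClosure ℚ ≃ₐ[ℚ] AlgebraicClosure ℚ)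

/-- **The context of GEO' at the good level, version 2**: `Final.Ctx` together with the fact that
`(V̂, L̂)` is the pull-back of a pair `(V₀, L₀)` of the level `M' p` with the local shape and the
eigen-relations there. -/
structure Ctx2 (p M' M₀ : ℕ) [NeZero M'] [NeZero p] [NeZero M₀] (S : Finset ℕ)
    (θ : heckeAlgebra (M' * p) 2 (↑S : Set ℕ) →+* ZMod p) (B : ValuationSubring Qb)
    (V L : AddSubgroup (JTors (M₀ * p) (p ^ 1))) : Prop extends Ctx p M' M₀ S θ B V L where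
  descends : ∃ (h : M' * p ∣ M₀ * p) (V₀ L₀ : AddSubgroup (JTors (M' * p) (p ^ 1))),
    V = V₀.map (pullbackTors h (p ^ 1)) ∧ L = L₀.map (pullbackTors h (p ^ 1)) ∧
      Function.Injective (pullbackTors h (p ^ 1)) ∧
      GeoShape p (M' * p) B V₀ L₀ ∧ EigenAt (M' * p) (p ^ 1) S (thetaVal θ) V₀

/-- **Block C3**, version 2. -/
def BlockC3' (nodeInf nodeZero : NodeFamily) : Prop :=
  ∀ (p M' M₀ : ℕ) [NeZero M'] [NeZero p] [NeZero M₀] (hp : p.Prime) (hpM : ¬ p ∣ M₀)
    (S : Finset ℕ) (θ : heckeAlgebra (M' * p) 2 (↑S : Set ℕ) →+* ZMod p)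
    (B : ValuationSubring Qb) (hB : B.LiesOverPrime p)
    (V L : AddSubgroup (JTors (M₀ * p) (p ^ 1))), Ctx2 p M' M₀ S θ B V L →
    L ≤ KmTors M₀ p hp hpM B hB (p ^ 1) → ∀ x ∈ V, ∃ c : ZMod p,
      IsDiagonal (hp := hp) (hpM := hpM) (hB := hB) (nodeInf M₀ p B) (nodeZero M₀ p B)
        (x : JZero (M₀ * p)) c

/-- **Block DIAG**, version 2. -/
def BlockDIAG' (nodeInf nodeZero : NodeFamily) : Prop :=
  ∀ (p M' M₀ : ℕ) [NeZero M'] [NeZero p] [NeZero M₀] (hp : p.Prime) (hpM : ¬ p ∣ M₀)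
    (S : Finset ℕ) (θ : heckeAlgebra (M' * p) 2 (↑S : Set ℕ) →+* ZMod p)
    (B : ValuationSubring Qb) (hB : B.LiesOverPrime p)
    (V L : AddSubgroup (JTors (M₀ * p) (p ^ 1))), Ctx2 p M' M₀ S θ B V L →
    ∀ x ∈ V, ∀ c : ZMod p,
      IsDiagonal (hp := hp) (hpM := hpM) (hB := hB) (nodeInf M₀ p B) (nodeZero M₀ p B)
        (x : JZero (M₀ * p)) c → c = 0

/-- **Block C2**, version 2. -/
def BlockC2' : Prop :=
  ∀ (p M' M₀ : ℕ) [NeZero M'] [NeZero p] [NeZero M₀] (hp : p.Prime) (hpM : ¬ p ∣ M₀)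
    (S : Finset ℕ) (θ : heckeAlgebra (M' * p) 2 (↑S : Set ℕ) →+* ZMod p)
    (B : ValuationSubring Qb) (hB : B.LiesOverPrime p)
    (V L : AddSubgroup (JTors (M₀ * p) (p ^ 1))), Ctx2 p M' M₀ S θ B V L →
    ∀ x ∈ V, x ∈ XfTors M₀ p hp hpM B hB → x ∈ KmTors M₀ p hp hpM B hB (p ^ 1)

theorem blockC3'_of_blockC3 {nodeInf nodeZero : NodeFamily} (h : BlockC3 nodeInf nodeZero) :
    BlockC3' nodeInf nodeZero :=
  fun p M' M₀ _ _ _ hp hpM S θ B hB V L hctx => h p M' M₀ hp hpM S θ B hB V L hctx.toCtx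

theorem blockDIAG'_of_blockDIAG {nodeInf nodeZero : NodeFamily} (h : BlockDIAG nodeInf nodeZero) :
    BlockDIAG' nodeInf nodeZero :=
  fun p M' M₀ _ _ _ hp hpM S θ B hB V L hctx => h p M' M₀ hp hpM S θ B hB V L hctx.toCtx

theorem blockC2'_of_blockC2 (h : BlockC2) : BlockC2' :=
  fun p M' M₀ _ _ _ hp hpM S θ B hB V L hctx => h p M' M₀ hp hpM S θ B hB V L hctx.toCtx

/-- **GEO' from the context (version 2) at the good level** and the three blocks. -/
theorem false_of_ctx2 {nodeInf nodeZero : NodeFamily} (h3 : BlockC3' nodeInf nodeZero)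
    (hD : BlockDIAG' nodeInf nodeZero) (h2 : BlockC2')
    {p M' M₀ : ℕ} [NeZero M'] [NeZero p] [NeZero M₀] {S : Finset ℕ}
    {θ : heckeAlgebra (M' * p) 2 (↑S : Set ℕ) →+* ZMod p} {B : ValuationSubring Qb}
    {V L : AddSubgroup (JTors (M₀ * p) (p ^ 1))} (h : Ctx2 p M' M₀ S θ B V L) : False := by
  have hp2 : p ≠ 2 := by have := h.five_le; omega
  exact geo_goodLevel (hp := h.prime) (hpM := h.not_dvd_good) (hB := h.liesOver) hp2 h.four_dvd
    h.shape.le h.shape.ne h.shape.hb h.shape.hc (nodeInf M₀ p B) (nodeZero M₀ p B)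
    (h3 p M' M₀ h.prime h.not_dvd_good S θ B h.liesOver V L h)
    (hD p M' M₀ h.prime h.not_dvd_good S θ B h.liesOver V L h)
    (h2 p M' M₀ h.prime h.not_dvd_good S θ B h.liesOver V L h)

/-- **The literal `s44_geo'` of board `S44_GEO`** from the three blocks (version 2). -/
theorem s44_geo'_of_blocks' {nodeInf nodeZero : NodeFamily} (h3 : BlockC3' nodeInf nodeZero)
    (hD : BlockDIAG' nodeInf nodeZero) (h2 : BlockC2')
    {p M' : ℕ} [NeZero M'] [NeZero p] (hp : p.Prime) (hp5 : 5 ≤ p) (hpM' : ¬ p ∣ M')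
    (S : Finset ℕ) (hpS : p ∈ S) (h2S : 2 ∈ S)
    (hNS : ∀ q : ℕ, q.Prime → q ∣ M' * p → q ∈ S)
    (θ : heckeAlgebra (M' * p) 2 (↑S : Set ℕ) →+* ZMod p)
    (hNE : ∃ (l : ℕ) (hl : l.Prime) (hlN : ¬ l ∣ M' * p) (hlS : l ∉ (↑S : Set ℕ)),
      θ (heckeAlgebra.T hl hlN hlS) ≠ (l : ZMod p) + 1)
    (hnew : ∃ h : heckeAlgebra (M' * p) 2 (↑S : Set ℕ), θ h ≠ 0 ∧
      Fermat.Agent.S35x.levelHom (N := M') (q := p) (S := (↑S : Set ℕ))
        (fun q hq hqN => Finset.mem_coe.mpr (hNS q hq hqN)) h = 0)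
    (E : HeckeTorsionAction (M' * p) S) [instMod : Module (ZMod p) (JTors (M' * p) (p ^ 1))]
    (B : ValuationSubring Qb) (hB : B.LiesOverPrime p)
    (V L : AddSubgroup (JTors (M' * p) (p ^ 1))) (hshape : GeoShape p (M' * p) B V L)
    (hVθ : ∀ x ∈ V, ∀ t, E.eta (p ^ 1) (pow_pos hp.pos 1) t x = θ t • x) : False := by
  have hp2 : p ≠ 2 := by omega
  haveI : NeZero (Nat.lcm M' 4) := neZero_lcm_four M'
  obtain ⟨hshape', heig, -⟩ := g0 hp hp2 S E θ B V L hshape hVθ
  have hM := goodLevel_eq (M' := M') hp hp2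
  exact false_of_ctx2 h3 hD h2 (M₀ := Nat.lcm M' 4)
    { level := rfl
      prime := hp
      five_le := hp5
      not_dvd := hpM'
      not_dvd_good := not_dvd_lcm_four hp hp2 hpM'
      four_dvd := four_dvd_lcm M'
      mem_p := hpS
      mem_two := h2S
      mem_of_dvd := hNS
      not_dvd_of_notMem := fun ℓ hℓ hℓS => not_dvd_goodLevel h2S hNS hℓ hℓS
      nonEis := hNE
      new := hnew
      liesOver := hB
      shape := hshape'
      eigen := heig
      descends := ⟨Nat.mul_dvd_mul_right (Nat.dvd_lcm_left M' 4) p, V, L, rfl, rfl,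
        Fermat.Agent.S40x.Level.BaseChangeTors.pullbackTors_injective' _ hM (p ^ 1), hshape,
        eigenAt_of_eta E (pow_pos hp.pos 1) θ V hVθ⟩ }

/-- **`LeafGEO'` from the three blocks (version 2).** -/
theorem leafGEO'_of_blocks' {nodeInf nodeZero : NodeFamily} (h3 : BlockC3' nodeInf nodeZero)
    (hD : BlockDIAG' nodeInf nodeZero) (h2 : BlockC2') :
    Fermat.Agent.S40x.A.S44SkeletonV2.LeafGEO' := by
  intro p M' _ _ _ _ hp hp5 hpM' S hpS h2S hNS θ hNE hnew V L hLV hLne hLcard hVgal hVθ B hB hb hc hd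
  exact s44_geo'_of_blocks' h3 hD h2 hp hp5 hpM' S hpS h2S hNS θ hNE hnew
    (Fermat.Agent.Gateway.Export.heckeTorsionAction (M' * p)
      (Fermat.Agent.Gateway.Export.coreInputs (M' * p)
        (Fermat.Agent.Gateway.Export.d5Input (M' * p))) S hNS)
    (instMod := Fermat.Agent.S40x.A.CopyInTorsion.zmodModule
      (Fermat.Agent.S40x.A.S44Skeleton2.tData hp hpS hNS))
    B hB V L ⟨hLV, hLne, hLcard, hVgal, hb, hc, hd⟩ hVθ

end Fermat.Agent.S40x.Geo.FinalV2
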