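import Fermat.Agent.S40x.Geo.Main
import Fermat.Agent.S40x.Level.G0
import Fermat.Agent.S40x.A.S44SkeletonV2

/-!
# P-S44, GEO: the leaf `LeafGEO'` from the three geometric blocks (helper21)

Remaining glue of board `S44_GEO`: the literal `S44SkeletonV2.LeafGEO'` of Block A (phrased on the
torsion Hecke data `tData` of the export contract) is transported

* to the `JTors / galTors / HeckeTorsionAction.eta` vocabulary (definitional unfolding of `tData`),
* to the good level `M₀ = lcm M' 4` by helper60's `Level/G0.g0`,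
* and closed by helper22's `Geo/Main.geo_goodLevel`,

the three consumer hypotheses `hC3`, `hG3`, `hG4` of `geo_goodLevel` being provided by three CLOSED
propositions `BlockC3`, `BlockDIAG`, `BlockC2`, universally quantified over the context `Ctx` of GEO'
at the good level (everything that is known there: the local shape `GeoShape` of `(V̂, L̂)`, the
elementwise eigen-relations `EigenAt`, `hNE`, `hnew`, the arithmetic of the level).  The node sets
are a parameter `nodeInf nodeZero : NodeFamily` (defined once by block R1).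

Main results: `s44_geo'_of_blocks` (the literal `s44_geo'` of the board, conclusion `False`) and
`leafGEO'_of_blocks : BlockC3 nodeInf nodeZero → BlockDIAG nodeInf nodeZero → BlockC2 →
S44SkeletonV2.LeafGEO'`.
-/

set_option autoImplicit false
set_option linter.unusedSectionVars false
set_option linter.unusedVariables false
set_option linter.style.haveILetI false

noncomputable section

namespace Fermat.Agent.S40x.Geo.Final

open CuspForm ModularCurve AlgebraicCurve
open Fermat.Agent.Gateway.S31Red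
open Fermat.Agent.S33x.KummerPn
open Fermat.Agent.S40x.Geo.Vocab Fermat.Agent.S40x.Geo.Main
open Fermat.Agent.S40x.Level.G0

local notation "Qb" => AlgebraicClosure ℚ
local notation "Γℚ" => (AlgebraicClosure ℚ ≃ₐ[ℚ] AlgebraicClosure ℚ)

/-- a family of sets of places of the function field of the components of the special fibre, one
for every good level `M₀ p` and every place `B` of `ℚ̄` (the node places, defined by block R1). -/
abbrev NodeFamily : Type :=
  ∀ (M₀ p : ℕ) (B : ValuationSubring Qb), Set (Place (kB B) (FkB B M₀))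

/-- **The context of GEO' at the good level** `M₀ = lcm M' 4`: the level arithmetic, the character
`θ` of the Hecke algebra of level `M' p` with `hNE` (non-Eisenstein) and `hnew` (not `p`-old), and the
pair `L̂ ≤ V̂` of subgroups of `J₀(M₀ p)[p]` with its local shape at `B` and the elementwise
eigen-relations `T_ℓ x = θ(T_ℓ) x` (`ℓ ∉ S`). -/
structure Ctx (p M' M₀ : ℕ) [NeZero M'] [NeZero p] [NeZero M₀] (S : Finset ℕ)
    (θ : heckeAlgebra (M' * p) 2 (↑S : Set ℕ) →+* ZMod p) (B : ValuationSubring Qb)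
    (V L : AddSubgroup (JTors (M₀ * p) (p ^ 1))) : Prop where
  level : M₀ = Nat.lcm M' 4
  prime : p.Prime
  five_le : 5 ≤ p
  not_dvd : ¬ p ∣ M'
  not_dvd_good : ¬ p ∣ M₀
  four_dvd : 4 ∣ M₀
  mem_p : p ∈ S
  mem_two : 2 ∈ S
  mem_of_dvd : ∀ q : ℕ, q.Prime → q ∣ M' * p → q ∈ S
  not_dvd_of_notMem : ∀ ℓ : ℕ, ℓ.Prime → ℓ ∉ S → ¬ ℓ ∣ M₀ * p
  nonEis : ∃ (l : ℕ) (hl : l.Prime) (hlN : ¬ l ∣ M' * p) (hlS : l ∉ (↑S : Set ℕ)),
    θ (heckeAlgebra.T hl hlN hlS) ≠ (l : ZMod p) + 1
  new : ∃ h : heckeAlgebra (M' * p) 2 (↑S : Set ℕ), θ h ≠ 0 ∧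
    Fermat.Agent.S35x.levelHom (N := M') (q := p) (S := (↑S : Set ℕ))
      (fun q hq hqN => Finset.mem_coe.mpr (mem_of_dvd q hq hqN)) h = 0
  liesOver : B.LiesOverPrime p
  shape : GeoShape p (M₀ * p) B V L
  eigen : EigenAt (M₀ * p) (p ^ 1) S (thetaVal θ) V

/-- **Block C3** (`c3_diagonal` + `c3_flat`): once `L̂ ≤ K_p`, every class of `V̂` has a diagonal
slope vector. -/
def BlockC3 (nodeInf nodeZero : NodeFamily) : Prop :=
  ∀ (p M' M₀ : ℕ) [NeZero M'] [NeZero p] [NeZero M₀] (hp : p.Prime) (hpM : ¬ p ∣ M₀)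
    (S : Finset ℕ) (θ : heckeAlgebra (M' * p) 2 (↑S : Set ℕ) →+* ZMod p)
    (B : ValuationSubring Qb) (hB : B.LiesOverPrime p)
    (V L : AddSubgroup (JTors (M₀ * p) (p ^ 1))), Ctx p M' M₀ S θ B V L →
    L ≤ KmTors M₀ p hp hpM B hB (p ^ 1) → ∀ x ∈ V, ∃ c : ZMod p,
      IsDiagonal (hp := hp) (hpM := hpM) (hB := hB) (nodeInf M₀ p B) (nodeZero M₀ p B)
        (x : JZero (M₀ * p)) c

/-- **Block DIAG** (G3): for the classes of `V̂` (eigenclasses of a non-Eisenstein system) a diagonal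
slope vector vanishes. -/
def BlockDIAG (nodeInf nodeZero : NodeFamily) : Prop :=
  ∀ (p M' M₀ : ℕ) [NeZero M'] [NeZero p] [NeZero M₀] (hp : p.Prime) (hpM : ¬ p ∣ M₀)
    (S : Finset ℕ) (θ : heckeAlgebra (M' * p) 2 (↑S : Set ℕ) →+* ZMod p)
    (B : ValuationSubring Qb) (hB : B.LiesOverPrime p)
    (V L : AddSubgroup (JTors (M₀ * p) (p ^ 1))), Ctx p M' M₀ S θ B V L →
    ∀ x ∈ V, ∀ c : ZMod p,
      IsDiagonal (hp := hp) (hpM := hpM) (hB := hB) (nodeInf M₀ p B) (nodeZero M₀ p B)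
        (x : JZero (M₀ * p)) c → c = 0

/-- **Block C2** (G4, route OMEGA, under `hnew`): a class of `V̂` in `X^f` lies in `K_p`. -/
def BlockC2 : Prop :=
  ∀ (p M' M₀ : ℕ) [NeZero M'] [NeZero p] [NeZero M₀] (hp : p.Prime) (hpM : ¬ p ∣ M₀)
    (S : Finset ℕ) (θ : heckeAlgebra (M' * p) 2 (↑S : Set ℕ) →+* ZMod p)
    (B : ValuationSubring Qb) (hB : B.LiesOverPrime p)
    (V L : AddSubgroup (JTors (M₀ * p) (p ^ 1))), Ctx p M' M₀ S θ B V L →
    ∀ x ∈ V, x ∈ XfTors M₀ p hp hpM B hB → x ∈ KmTors M₀ p hp hpM B hB (p ^ 1)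

/-- **GEO' from the context at the good level** and the three blocks. -/
theorem false_of_ctx {nodeInf nodeZero : NodeFamily} (h3 : BlockC3 nodeInf nodeZero)
    (hD : BlockDIAG nodeInf nodeZero) (h2 : BlockC2)
    {p M' M₀ : ℕ} [NeZero M'] [NeZero p] [NeZero M₀] {S : Finset ℕ}
    {θ : heckeAlgebra (M' * p) 2 (↑S : Set ℕ) →+* ZMod p} {B : ValuationSubring Qb}
    {V L : AddSubgroup (JTors (M₀ * p) (p ^ 1))} (h : Ctx p M' M₀ S θ B V L) : False := by
  have hp2 : p ≠ 2 := by have := h.five_le; omega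
  exact geo_goodLevel (hp := h.prime) (hpM := h.not_dvd_good) (hB := h.liesOver) hp2 h.four_dvd
    h.shape.le h.shape.ne h.shape.hb h.shape.hc (nodeInf M₀ p B) (nodeZero M₀ p B)
    (h3 p M' M₀ h.prime h.not_dvd_good S θ B h.liesOver V L h)
    (hD p M' M₀ h.prime h.not_dvd_good S θ B h.liesOver V L h)
    (h2 p M' M₀ h.prime h.not_dvd_good S θ B h.liesOver V L h)

/-- **The literal `s44_geo'` of board `S44_GEO`** (level `M' p`, vocabulary `JTors` / `galTors` /
`HeckeTorsionAction.eta`) from the three blocks. -/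
theorem s44_geo'_of_blocks {nodeInf nodeZero : NodeFamily} (h3 : BlockC3 nodeInf nodeZero)
    (hD : BlockDIAG nodeInf nodeZero) (h2 : BlockC2)
    {p M' : ℕ} [NeZero M'] [NeZero p] (hp : p.Prime) (hp5 : 5 ≤ p) (hpM' : ¬ p ∣ M')
    (S : Finset ℕ) (hpS : p ∈ S) (h2S : 2 ∈ S)
    (hNS : ∀ q : ℕ, q.Prime → q ∣ M' * p → q ∈ S)
    (θ : heckeAlgebra (M' * p) 2 (↑S : Set ℕ) →+* ZMod p)
    (hNE : ∃ (l : ℕ) (hl : l.Prime) (hlN : ¬ l ∣ M' * p) (hlS : l ∉ (↑S : Set ℕ)),
      θ (heckeAlgebra.T hl hlN hlS) ≠ (l : ZMod p) + 1)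
    (hnew : ∃ h : heckeAlgebra (M' * p) 2 (↑S : Set ℕ), θ h ≠ 0 ∧
      Fermat.Agent.S35x.levelHom (N := M') (q := p) (S := (↑S : Set ℕ))
        (fun q hq hqN => Finset.mem_coe.mpr (hNS q hq hqN)) h = 0)
    (E : HeckeTorsionAction (M' * p) S) [instMod : Module (ZMod p) (JTors (M' * p) (p ^ 1))]
    (B : ValuationSubring Qb) (hB : B.LiesOverPrime p)
    (V L : AddSubgroup (JTors (M' * p) (p ^ 1))) (hshape : GeoShape p (M' * p) B V L)
    (hVθ : ∀ x ∈ V, ∀ t, E.eta (p ^ 1) (pow_pos hp.pos 1) t x = θ t • x) : False := by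
  have hp2 : p ≠ 2 := by omega
  haveI : NeZero (Nat.lcm M' 4) := neZero_lcm_four M'
  obtain ⟨hshape', heig, -⟩ := g0 hp hp2 S E θ B V L hshape hVθ
  exact false_of_ctx h3 hD h2 (M₀ := Nat.lcm M' 4)
    { level := rfl
      prime := hp
      five_le := hp5
      not_dvd := hpM'
      not_dvd_good := not_dvd_lcm_four hp hp2 hpM'
      four_dvd := four_dvd_lcm M'
      mem_p := hpS
      mem_two := h2S
      mem_of_dvd := hNS
      not_dvd_of_notMem := fun ℓ hℓ hℓS => not_dvd_goodLevel h2S hNS hℓ hℓS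
      nonEis := hNE
      new := hnew
      liesOver := hB
      shape := hshape'
      eigen := heig }

/-- **`LeafGEO'` from the three blocks.** -/
theorem leafGEO'_of_blocks {nodeInf nodeZero : NodeFamily} (h3 : BlockC3 nodeInf nodeZero)
    (hD : BlockDIAG nodeInf nodeZero) (h2 : BlockC2) :
    Fermat.Agent.S40x.A.S44SkeletonV2.LeafGEO' := by
  intro p M' _ _ _ _ hp hp5 hpM' S hpS h2S hNS θ hNE hnew V L hLV hLne hLcard hVgal hVθ B hB hb hc hd
  exact s44_geo'_of_blocks h3 hD h2 hp hp5 hpM' S hpS h2S hNS θ hNE hnew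
    (Fermat.Agent.Gateway.Export.heckeTorsionAction (M' * p)
      (Fermat.Agent.Gateway.Export.coreInputs (M' * p)
        (Fermat.Agent.Gateway.Export.d5Input (M' * p))) S hNS)
    (instMod := Fermat.Agent.S40x.A.CopyInTorsion.zmodModule
      (Fermat.Agent.S40x.A.S44Skeleton2.tData hp hpS hNS))
    B hB V L ⟨hLV, hLne, hLcard, hVgal, hb, hc, hd⟩ hVθ

end Fermat.Agent.S40x.Geo.Final
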