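import Fermat.Agent.S40x.Slope.InstMq
import Fermat.Agent.S33x.KummerPn

/-!
# P-S44, GEO vocabulary (helper22): slopes, `X^f` and "diagonal" at the `ℚ̄`-instance

The instance of `S40x/Slope/InstMq` (helper47) at `L = ℚ̄`, `A = B` a valuation subring of `ℚ̄` over
`p`, `k = ResidueField B`, with exactly the `ResidueFacts` used in `S33x/KummerPn.KmQb`, so that
`K₁ = KmQb` holds by `InstMq.K1_eq_Km`.  This file is the common vocabulary of the consumer theorems
of the blocks C3 (`c3_diagonal`, `c3_flat`), DIAG (G3) and C2 (G4) and of `Geo/Main.lean`.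

* `kB B` : the residue field; `FkB B M₀` : the function field of the components;
* `slopeInfQb`, `slopeZeroQb : JZero (M₀ p) → Place → ZMod p` : the slopes of a class on the two
  components;
* `XfQb` (subgroup of `JZero (M₀ p)`), `XfTors` (subgroup of `JTors (M₀ p) p`), `mem_XfTors_iff`;
* `KmQb_le_XfQb`, `mem_KmQb_iff_redClass_zero` re-exported;
* `IsDiagonal nodeInf nodeZero x c` : the slope vector of `x` is `c` on the node places of
  `κ_∞`, `-c` on the node places of `κ_0` and `0` at all other places (cusps included);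
  `mem_XfQb_of_isDiagonal_zero`.
-/

set_option autoImplicit false
set_option linter.style.haveILetI false
set_option linter.unusedSectionVars false

noncomputable section

namespace Fermat.Agent.S40x.Geo.Vocab

open ModularCurve AlgebraicCurve IntermediateField IsLocalRing
open Fermat.Agent.Gateway.Hecke Fermat.Agent.Gateway.ESC Fermat.Agent.Gateway.Kummer
open Fermat.Agent.Gateway.Red Fermat.Agent.Gateway.GoodRed
open Fermat.Agent.S34x.TwoVal Fermat.Agent.S34x.C0two
open Fermat.Agent.S34x.Inst.RedSetupInst Fermat.Agent.S34x.Inst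
open Fermat.Agent.Gateway.S31Red
open Fermat.Agent.S33x.KummerPn
open Fermat.Agent.S40x.Slope.InstMq

local notation "Qb" => AlgebraicClosure ℚ
local notation "Γℚ" => (AlgebraicClosure ℚ ≃ₐ[ℚ] AlgebraicClosure ℚ)

/-- the residue field of the place `B` -/
abbrev kB (B : ValuationSubring Qb) : Type := ResidueField B

/-- the function field of the two components of the special fibre -/
abbrev FkB (B : ValuationSubring Qb) (M₀ : ℕ) : Type := ↥(modularFunctionFieldFullC (kB B) M₀)

/-- shortcut instance (the term found by instance synthesis, which needs more than the default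
number of heartbeats at `k = ResidueField B`) -/
instance instAlgebraFkB (B : ValuationSubring Qb) (M₀ : ℕ) : Algebra (kB B) (FkB B M₀) :=
  SubalgebraClass.toAlgebra (modularFunctionFieldFullC (ResidueField B) M₀)

section

variable (M₀ p : ℕ) [NeZero M₀] [NeZero p] (hp : p.Prime) (hpM : ¬ p ∣ M₀)
  (B : ValuationSubring Qb) (hB : B.LiesOverPrime p)

/-- **the slope on the component `C_∞`** of a class of `J₀(M₀ p)` at a place of `κ_∞`. -/
def slopeInfQb (x : JZero (M₀ * p)) (P : Place (kB B) (FkB B M₀)) : ZMod p :=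
  haveI : Algebra.IsAlgebraic ℚ Qb := AlgebraicClosure.isAlgebraic ℚ
  haveI : Fact p.Prime := ⟨hp⟩
  haveI : IsAlgClosed (ResidueField B) := FinalBase.isAlgClosed_residueField B
  haveI : CharP (ResidueField B) p := FinalBase.charP_residueField B hB
  slopeInf (ResidueInst.residueFacts B (residue B) M₀ p (hdegQb M₀ p hp hpM) hp hpM
    (FinalBase.rank_one B hp hB) (FinalBase.residue_surjective B)) hB p x P

/-- **the slope on the component `C_0`**. -/
def slopeZeroQb (x : JZero (M₀ * p)) (P : Place (kB B) (FkB B M₀)) : ZMod p :=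
  haveI : Algebra.IsAlgebraic ℚ Qb := AlgebraicClosure.isAlgebraic ℚ
  haveI : Fact p.Prime := ⟨hp⟩
  haveI : IsAlgClosed (ResidueField B) := FinalBase.isAlgClosed_residueField B
  haveI : CharP (ResidueField B) p := FinalBase.charP_residueField B hB
  slopeZero (ResidueInst.residueFacts B (residue B) M₀ p (hdegQb M₀ p hp hpM) hp hpM
    (FinalBase.rank_one B hp hB) (FinalBase.residue_surjective B)) hB p x P

/-- **`X^f`**: the `p`-torsion classes all of whose slopes vanish. -/
def XfQb : AddSubgroup (JZero (M₀ * p)) :=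
  haveI : Algebra.IsAlgebraic ℚ Qb := AlgebraicClosure.isAlgebraic ℚ
  haveI : Fact p.Prime := ⟨hp⟩
  haveI : IsAlgClosed (ResidueField B) := FinalBase.isAlgClosed_residueField B
  haveI : CharP (ResidueField B) p := FinalBase.charP_residueField B hB
  XfMq (ResidueInst.residueFacts B (residue B) M₀ p (hdegQb M₀ p hp hpM) hp hpM
    (FinalBase.rank_one B hp hB) (FinalBase.residue_surjective B)) hB hp.pos

/-- `X^f` inside `J₀(M₀ p)[p]` -/
def XfTors : AddSubgroup (JTors (M₀ * p) (p ^ 1)) :=
  (XfQb M₀ p hp hpM B hB).comap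
    (Pic0.torsion Qb (modularFunctionFieldBar (M₀ * p)) (p ^ 1)).subtype

variable {M₀ p hp hpM B hB}

theorem mem_XfQb_iff {x : JZero (M₀ * p)} :
    x ∈ XfQb M₀ p hp hpM B hB ↔ (p : ℤ) • x = 0 ∧ ∀ P : Place (kB B) (FkB B M₀),
      slopeInfQb M₀ p hp hpM B hB x P = 0 ∧ slopeZeroQb M₀ p hp hpM B hB x P = 0 :=
  Iff.rfl

theorem mem_XfTors_iff {x : JTors (M₀ * p) (p ^ 1)} :
    x ∈ XfTors M₀ p hp hpM B hB ↔ (x : JZero (M₀ * p)) ∈ XfQb M₀ p hp hpM B hB := Iff.rfl

/-- every class of `J₀(M₀ p)[p ^ 1]` is killed by `p` -/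
theorem zsmul_coe_eq_zero (x : JTors (M₀ * p) (p ^ 1)) : (p : ℤ) • (x : JZero (M₀ * p)) = 0 := by
  have h : (p ^ 1) • (x : JZero (M₀ * p)) = 0 := nsmul_coe_eq_zero x
  rw [natCast_zsmul]
  simpa using h

theorem mem_XfTors_iff_slopes {x : JTors (M₀ * p) (p ^ 1)} :
    x ∈ XfTors M₀ p hp hpM B hB ↔ ∀ P : Place (kB B) (FkB B M₀),
      slopeInfQb M₀ p hp hpM B hB (x : JZero (M₀ * p)) P = 0 ∧
        slopeZeroQb M₀ p hp hpM B hB (x : JZero (M₀ * p)) P = 0 := by
  rw [mem_XfTors_iff, mem_XfQb_iff]
  exact ⟨fun h => h.2, fun h => ⟨zsmul_coe_eq_zero x, h⟩⟩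

/-- `K_p ≤ X^f` -/
theorem KmQb_le_XfQb : KmQb M₀ p hp hpM B hB p ≤ XfQb M₀ p hp hpM B hB := by
  haveI : Algebra.IsAlgebraic ℚ Qb := AlgebraicClosure.isAlgebraic ℚ
  haveI : Fact p.Prime := ⟨hp⟩
  haveI : IsAlgClosed (ResidueField B) := FinalBase.isAlgClosed_residueField B
  haveI : CharP (ResidueField B) p := FinalBase.charP_residueField B hB
  exact Km_le_XfMq hp.pos

/-- **the slope vector of `x` is diagonal**: `c` at the node places of `κ_∞`, `-c` at the node
places of `κ_0`, `0` at every other place of the two residue fields (cusps included).  The sets of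
node places are parameters (they are defined by block R1). -/
structure IsDiagonal (nodeInf nodeZero : Set (Place (kB B) (FkB B M₀))) (x : JZero (M₀ * p))
    (c : ZMod p) : Prop where
  inf_node : ∀ P ∈ nodeInf, slopeInfQb M₀ p hp hpM B hB x P = c
  zero_node : ∀ P ∈ nodeZero, slopeZeroQb M₀ p hp hpM B hB x P = -c
  inf_off : ∀ P ∉ nodeInf, slopeInfQb M₀ p hp hpM B hB x P = 0
  zero_off : ∀ P ∉ nodeZero, slopeZeroQb M₀ p hp hpM B hB x P = 0

/-- a `p`-torsion class with diagonal slope vector `0` lies in `X^f` -/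
theorem mem_XfQb_of_isDiagonal_zero {nodeInf nodeZero : Set (Place (kB B) (FkB B M₀))}
    {x : JZero (M₀ * p)} (hx : (p : ℤ) • x = 0)
    (h : IsDiagonal (hp := hp) (hpM := hpM) (hB := hB) nodeInf nodeZero x 0) :
    x ∈ XfQb M₀ p hp hpM B hB := by
  classical
  refine mem_XfQb_iff.mpr ⟨hx, fun P => ⟨?_, ?_⟩⟩
  · by_cases hP : P ∈ nodeInf
    · exact h.inf_node P hP
    · exact h.inf_off P hP
  · by_cases hP : P ∈ nodeZero
    · rw [h.zero_node P hP, neg_zero]
    · exact h.zero_off P hP

end

end Fermat.Agent.S40x.Geo.Vocab
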