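import Fermat.Agent.S40x.C2.DescentB.C2Closed
import Fermat.Agent.S40x.C2.LevelCompat
import Fermat.Agent.S40x.C2.KummerPull
import Fermat.Agent.S40x.Geo.FinalV2
import Fermat.Agent.S40x.Geo.C2Bridge

/-!
# P-S44, GEO: the block `BlockC2'` (helper28)

`FinalV2.BlockC2'` : in the context `Ctx2` at the good level `M₀ = lcm M' 4`, a class of `V̂` in
`X^f` lies in `K_p`.  Proof = composition of LANDED files, no new mathematics:

* **(G-a) dictionary**: `XfTors`, `KmTors` of `Geo/Vocab`, `S33x/KummerPn` are `XfMq H hA`, `Km H hA`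
  at the instance `H := ResidueInst.residueFacts B (residue B) M₀ p ..` (definitional); `EigenAt`
  gives the eigen-relations on `I := {ℓ | ℓ ∉ S}` (`ℕ`-scalars to `ℤ`-scalars);
* **(G-b) the Kummer function**: by `Ctx2.descends` the class is `π^* x₀` for a class `x₀` of the
  level `M' p`; `C2/KummerPull.exists_isKummerRep_pullbackPic` (helper29) gives a Kummer function
  coming from `F_{M' p}` and `C2/LevelCompat.exists_rep_reductions_mem` (helper83) normalises it
  (unit at both valuations, reductions in `Fk k M'`);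
* **block C2**: `C2/DescentB/C2Closed.c2_closed` (helper23; = `AsmMain.c2_main` of helper90 with
  `hdesc`, `hKH₂` discharged) produces a nonzero eigen-`q`-series in the span of the reductions of a
  saturated integral basis of `S₂(Γ₀(M'))`;
* **block A**: `A/NewKill.false_of_new_of_qseries` + `Geo/C2Bridge.linearIndependent_zmod_of_field`
  contradict `hnew`.
-/

set_option autoImplicit false
set_option linter.unusedSectionVars false
set_option linter.unusedVariables false
set_option linter.style.haveILetI false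

noncomputable section

namespace Fermat.Agent.S40x.Geo.C2Seam

open ModularCurve AlgebraicCurve CuspForm CongruenceSubgroup UpperHalfPlane IsLocalRing
open Fermat.Agent.Gateway.S31Red Fermat.Agent.Gateway.Kummer Fermat.Agent.Gateway.Hecke
open Fermat.Agent.Gateway.Red Fermat.Agent.Gateway.GoodRed
open Fermat.Agent.S34x.TwoVal Fermat.Agent.S34x.C0two
open Fermat.Agent.S34x.Inst.RedSetupInst Fermat.Agent.S34x.Inst
open Fermat.Agent.S33x.KummerPn
open Fermat.Agent.S33x.Consumer.LevelTransport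
open Fermat.Agent.S40x.Slope.UnitTwo Fermat.Agent.S40x.Slope.Xf Fermat.Agent.S40x.Slope.InstMq
open Fermat.Agent.S40x.Geo.Vocab Fermat.Agent.S40x.Level.G0
open Fermat.Agent.S40x.Geo.Final Fermat.Agent.S40x.Geo.FinalV2

local notation "Qb" => AlgebraicClosure ℚ

/-- **The v2-shaped output of block C2 contradicts `hnew`.**  The basis `(f', qf')` is fixed first
(as in `AsmMain.c2_main` v2 / `C2Closed.c2_closed`); `hout` is the per-class conclusion verbatim at
`a ℓ = thetaVal θ ℓ`, the eigen-relations being known on a set `I` containing the primes outside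
`S`. -/
theorem false_of_c2_closed_output {M' Mh p : ℕ} [NeZero M'] [NeZero p] (hp : p.Prime)
    (S : Finset ℕ) (hNS : ∀ q : ℕ, q.Prime → q ∣ M' * p → q ∈ S)
    (hSMh : ∀ l : ℕ, l.Prime → l ∉ S → ¬ l ∣ Mh * p)
    (θ : heckeAlgebra (M' * p) 2 (↑S : Set ℕ) →+* ZMod p)
    (hnew : ∃ h : heckeAlgebra (M' * p) 2 (↑S : Set ℕ), θ h ≠ 0 ∧
      Fermat.Agent.S35x.levelHom (N := M') (q := p) (S := (↑S : Set ℕ))
        (fun q hq hqN => Finset.mem_coe.mpr (hNS q hq hqN)) h = 0)
    {k : Type} [Field k] [CharP k p] {r : ℕ}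
    (f' : Fin r → CuspForm (Gamma0 M') 2) (qf' : Fin r → PowerSeries ℤ)
    (hqf' : ∀ j, qExpansion 1 (f' j) = (qf' j).map (Int.castRingHom ℂ))
    (hsatk : LinearIndependent k (fun j => (qf' j).map (Int.castRingHom k)))
    (I : Set ℕ) (hI : ∀ l : ℕ, l.Prime → l ∉ S → l ∈ I)
    (hout : ∃ (c : Fin r → k) (g : LaurentSeries k),
      g = ∑ j, HahnSeries.C (c j) *
        HahnSeries.ofPowerSeries ℤ k ((qf' j).map (Int.castRingHom k)) ∧
      g ≠ 0 ∧
      ∀ (ℓ : ℕ) [NeZero ℓ], ℓ.Prime → ¬ ℓ ∣ Mh * p → ℓ ∈ I →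
        Fermat.Agent.S40x.C2.DlogHecke.heckeT ℓ g =
          HahnSeries.C ((((thetaVal θ ℓ : ℕ) : ℤ) : ℤ) : k) * g) : False := by
  haveI : Fact p.Prime := ⟨hp⟩
  obtain ⟨c, g, hg, hg0, heig⟩ := hout
  refine Fermat.Agent.S40x.A.NewKill.false_of_new_of_qseries hp S
    (fun q hq hqN => Finset.mem_coe.mpr (hNS q hq hqN)) θ hnew
    (fun l => ((thetaVal θ l : ℕ) : ℤ)) (fun l hl hlN hlS => ?_) f' qf' hqf'
    (Fermat.Agent.S40x.Geo.C2Bridge.linearIndependent_zmod_of_field qf' hsatk) c g hg hg0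
    (fun l hl hlM hlS => ?_)
  · rw [Int.cast_natCast, thetaVal_cast θ hl hlN hlS]
  · haveI : NeZero l := ⟨hl.ne_zero⟩
    have hlS' : l ∉ S := fun h => hlS (Finset.mem_coe.mpr h)
    exact heig l hl (hSMh l hl hlS') (hI l hl hlS')

/-- **`BlockC2'`** (`FinalV2`): in the context `Ctx2` at the good level, a class of `V̂` in `X^f`
lies in `K_p`. -/
theorem blockC2' : BlockC2' := by
  intro p M' M₀ _ _ _ hp hpM S θ B hB V L hctx x hxV hxf
  by_contra hxK
  haveI : Algebra.IsAlgebraic ℚ Qb := AlgebraicClosure.isAlgebraic ℚ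
  haveI : Fact p.Prime := ⟨hp⟩
  haveI : IsAlgClosed (ResidueField B) := FinalBase.isAlgClosed_residueField B
  haveI : CharP (ResidueField B) p := FinalBase.charP_residueField B hB
  -- the level arithmetic
  have hlevel : M₀ = Nat.lcm M' 4 := hctx.level
  have hM : M' ∣ M₀ := hlevel ▸ Nat.dvd_lcm_left M' 4
  have h4 : 4 ∣ M₀ := hctx.four_dvd
  have hMh : M₀ ∣ Nat.lcm 4 M' := by rw [hlevel, Nat.lcm_comm]
  have h5 : 5 ≤ p := hctx.five_le
  -- the class comes from the level `M' p`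
  obtain ⟨hdvd, V₀, L₀, hV, -, -, -, -⟩ := hctx.descends
  have hxV' := hxV
  rw [hV] at hxV'
  obtain ⟨x₀, -, hx₀⟩ := hxV'
  -- (G-a) the dictionary
  have hξf : (x : JZero (M₀ * p)) ∈ XfMq (ResidueInst.residueFacts B (residue B) M₀ p
      (hdegQb M₀ p hp hpM) hp hpM (FinalBase.rank_one B hp hB)
      (FinalBase.residue_surjective B)) hB hp.pos := hxf
  have hKm : Km (ResidueInst.residueFacts B (residue B) M₀ p
      (hdegQb M₀ p hp hpM) hp hpM (FinalBase.rank_one B hp hB)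
      (FinalBase.residue_surjective B)) hB (p ^ 1) = Km (ResidueInst.residueFacts B (residue B) M₀ p
      (hdegQb M₀ p hp hpM) hp hpM (FinalBase.rank_one B hp hB)
      (FinalBase.residue_surjective B)) hB p := by rw [pow_one]
  have hξ1 : (x : JZero (M₀ * p)) ∉ Km (ResidueInst.residueFacts B (residue B) M₀ p
      (hdegQb M₀ p hp hpM) hp hpM (FinalBase.rank_one B hp hB)
      (FinalBase.residue_surjective B)) hB p := by
    intro h
    rw [← hKm] at h
    exact hxK h
  have heig : ∀ (ℓ : ℕ) [NeZero ℓ], ℓ.Prime → ¬ ℓ ∣ M₀ * p → ℓ ∈ {ℓ : ℕ | ℓ ∉ S} →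
      heckeOperatorAlong Qb (M₀ * p) ℓ (x : JZero (M₀ * p)) =
        (fun ℓ : ℕ => ((thetaVal θ ℓ : ℕ) : ℤ)) ℓ • (x : JZero (M₀ * p)) := by
    intro ℓ _ hℓ hℓN hℓS
    show _ = ((thetaVal θ ℓ : ℕ) : ℤ) • (x : JZero (M₀ * p))
    rw [natCast_zsmul]
    exact hctx.eigen ℓ hℓ hℓN hℓS x hxV
  -- (G-b) the Kummer function
  have hx₀p : (p : ℤ) • (x₀ : JZero (M' * p)) = 0 := zsmul_coe_eq_zero x₀
  obtain ⟨u, -, hu⟩ :=
    Fermat.Agent.S40x.C2.KummerPull.exists_isKummerRep_pullbackPic hdvd hx₀p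
  have hxcoe : (x : JZero (M₀ * p)) =
      Fermat.Agent.Gateway.Descent.pullbackPic hdvd (x₀ : JZero (M' * p)) := by
    rw [← hx₀]
    rfl
  have hw₀ : IsKummerRep p (x : JZero (M₀ * p))
      (Fermat.Agent.S40x.C2.LevelCompat.inc (L := Qb) (q := p) hM u) := by
    rw [hxcoe]
    exact hu
  obtain ⟨w, hw, hU, hw₁, hw₂, -⟩ :=
    Fermat.Agent.S40x.C2.LevelCompat.exists_rep_reductions_mem (ResidueInst.residueFacts B
      (residue B) M₀ p (hdegQb M₀ p hp hpM) hp hpM (FinalBase.rank_one B hp hB)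
      (FinalBase.residue_surjective B)) hB hM hw₀
  -- block C2
  obtain ⟨f', qf', hqf', -, -, -, hsatk, hmain⟩ :=
    Fermat.Agent.S40x.C2.DescentB.C2Closed.c2_closed (ResidueInst.residueFacts B
      (residue B) M₀ p (hdegQb M₀ p hp hpM) hp hpM (FinalBase.rank_one B hp hB)
      (FinalBase.residue_surjective B)) hB hM h4 hMh h5
  have hout := hmain (fun ℓ : ℕ => ((thetaVal θ ℓ : ℕ) : ℤ)) {ℓ : ℕ | ℓ ∉ S} hξf hξ1 heig hw hU
    hw₁ hw₂
  -- block A
  exact false_of_c2_closed_output hp S hctx.mem_of_dvd hctx.not_dvd_of_notMem θ hctx.new f' qf'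
    hqf' hsatk {ℓ : ℕ | ℓ ∉ S} (fun l _ h => h) hout

end Fermat.Agent.S40x.Geo.C2Seam
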