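import Fermat.Agent.S40x.Geo.Vocab

/-!
# P-S44, GEO: the type of a choice of node places (helper22)

`NodeSets` : for every good level `M₀ p` and every place `B` of `ℚ̄` over `p`, a pair of sets of places
of the function field `FkB B M₀` of the two components `κ_∞`, `κ_0` of the special fibre: the node
(supersingular) places.  The consumer statements `LeafC3 𝒩`, `LeafDIAG 𝒩` of `Geo/Final.lean` are
parametrised by `𝒩 : NodeSets`; block R1 provides the concrete choice.  `IsDiagonalAt 𝒩 x c` is
`Vocab.IsDiagonal` for the node sets `𝒩`.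
-/

set_option autoImplicit false
set_option linter.unusedSectionVars false

noncomputable section

namespace Fermat.Agent.S40x.Geo.Nodes

open ModularCurve AlgebraicCurve
open Fermat.Agent.S40x.Geo.Vocab

local notation "Qb" => AlgebraicClosure ℚ

/-- a choice of the node places of the two components `κ_∞`, `κ_0` of the special fibre, for every
good level `M₀ p` and every place `B` of `ℚ̄` over `p` -/
abbrev NodeSets : Type :=
  ∀ (M₀ p : ℕ) [NeZero M₀] [NeZero p] (_hp : p.Prime) (_hpM : ¬ p ∣ M₀)
    (B : ValuationSubring Qb) (_hB : B.LiesOverPrime p),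
    Set (Place (kB B) (FkB B M₀)) × Set (Place (kB B) (FkB B M₀))

/-- the slope vector of `x` is diagonal with respect to the node sets `𝒩` -/
abbrev IsDiagonalAt (𝒩 : NodeSets) (M₀ p : ℕ) [NeZero M₀] [NeZero p] (hp : p.Prime)
    (hpM : ¬ p ∣ M₀) (B : ValuationSubring Qb) (hB : B.LiesOverPrime p) (x : JZero (M₀ * p))
    (c : ZMod p) : Prop :=
  IsDiagonal (hp := hp) (hpM := hpM) (hB := hB) (𝒩 M₀ p hp hpM B hB).1 (𝒩 M₀ p hp hpM B hB).2 x c

end Fermat.Agent.S40x.Geo.Nodes
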