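import Fermat.Agent.S40x.Geo.Main
import Fermat.Agent.S40x.Geo.NodeSets
import Fermat.Agent.S40x.Level.G0
import Fermat.Agent.S35x.LevelHom

/-!
# P-S44, GEO: `LeafGEO'` from the three geometric blocks (helper22)

`S40x/A/S44OfGeo.s44_of_geo : LeafGEO' → <frozen S44>` (helper95) leaves the single Prop
`S44SkeletonV2.LeafGEO'`.  Here it is reduced to three CLOSED Props, one per geometric block, all at
the good level `N̂ = M₀ p` (`4 ∣ M₀`, `p ∤ M₀`, `p ≥ 5`) in the vocabulary of `Geo/Vocab.lean`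
(`slopeInfQb`, `slopeZeroQb`, `XfTors`, `IsDiagonal`) and of `Level/G0.lean` (`GeoShape`, `EigenAt`,
`thetaVal`):

* `LeafC3 𝒩` (block C3): local shape of `(V, L)` and `L ≤ K_p` ⟹ every `x ∈ V` has a DIAGONAL slope
  vector with respect to the node sets `𝒩`;
* `LeafDIAG 𝒩` (block DIAG): for `x ∈ V`, `V` a `T_ℓ`-eigenspace (`ℓ ∉ S`) of a non-Eisenstein
  system, diagonal implies `c = 0`;
* `LeafC2` (block C2, route OMEGA + the landed seam `A/NewKill`): if `θ` is not `p`-old, the pull-back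
  to the good level `lcm M' 4 * p` of a `θ`-eigenclass of level `M' p` which lies in `X^f` lies in
  `K_p`.

`𝒩 : NodeSets` is an arbitrary choice of the two sets of node places (block R1 defines it; the
assembly does not care).  `geo_of_leaves : LeafC3 𝒩 → LeafDIAG 𝒩 → LeafC2 → <GEO' in the JTors
vocabulary>`; `Geo/LeafGEO.lean` restates it as `S44SkeletonV2.LeafGEO'`.
-/

set_option autoImplicit false
set_option linter.unusedSectionVars false
set_option linter.unusedVariables false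
set_option linter.style.haveILetI false

noncomputable section

namespace Fermat.Agent.S40x.Geo.FinalLeaves

open ModularCurve AlgebraicCurve CuspForm
open Fermat.Agent.Gateway.S31Red
open Fermat.Agent.S33x.KummerPn
open Fermat.Agent.S33x.Consumer.LevelTransport
open Fermat.Agent.S40x.Geo.Vocab Fermat.Agent.S40x.Geo.Main Fermat.Agent.S40x.Geo.Nodes
open Fermat.Agent.S40x.Level.G0

local notation "Qb" => AlgebraicClosure ℚ
local notation "Γℚ" => (AlgebraicClosure ℚ ≃ₐ[ℚ] AlgebraicClosure ℚ)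

/-- **Block C3** (`c3_diagonal` + `c3_flat`): at a good level, for a pair `L < V` with the local
shape of `s44_geo'` and `L ≤ K_p`, every class of `V` has a diagonal slope vector. -/
def LeafC3 (𝒩 : NodeSets) : Prop :=
  ∀ (M₀ p : ℕ) [NeZero M₀] [NeZero p] (hp : p.Prime) (hpM : ¬ p ∣ M₀)
    (B : ValuationSubring Qb) (hB : B.LiesOverPrime p), 5 ≤ p → 4 ∣ M₀ →
    ∀ (V L : AddSubgroup (JTors (M₀ * p) (p ^ 1))), GeoShape p (M₀ * p) B V L →
      L ≤ KmTors M₀ p hp hpM B hB (p ^ 1) →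
      ∀ x ∈ V, ∃ c : ZMod p,
        IsDiagonal (hp := hp) (hpM := hpM) (hB := hB) (𝒩 M₀ p hp hpM B hB).1
          (𝒩 M₀ p hp hpM B hB).2 (x : JZero (M₀ * p)) c

/-- **Block DIAG** (G3): at a good level, a class of a Galois-stable `T_ℓ`-eigenspace (`ℓ ∉ S`) of
a non-Eisenstein system of eigenvalues whose slope vector is diagonal has slope `0`. -/
def LeafDIAG (𝒩 : NodeSets) : Prop :=
  ∀ (M₀ p : ℕ) [NeZero M₀] [NeZero p] (hp : p.Prime) (hpM : ¬ p ∣ M₀)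
    (B : ValuationSubring Qb) (hB : B.LiesOverPrime p), 5 ≤ p → 4 ∣ M₀ →
    ∀ (S : Finset ℕ) (a : ℕ → ℕ), (∀ q : ℕ, q.Prime → q ∣ M₀ * p → q ∈ S) →
      (∃ l : ℕ, l.Prime ∧ l ∉ S ∧ ((a l : ℕ) : ZMod p) ≠ (l : ZMod p) + 1) →
      ∀ (V L : AddSubgroup (JTors (M₀ * p) (p ^ 1))), GeoShape p (M₀ * p) B V L →
        EigenAt (M₀ * p) (p ^ 1) S a V →
        ∀ x ∈ V, ∀ c : ZMod p,
          IsDiagonal (hp := hp) (hpM := hpM) (hB := hB) (𝒩 M₀ p hp hpM B hB).1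
            (𝒩 M₀ p hp hpM B hB).2 (x : JZero (M₀ * p)) c → c = 0

/-- **Block C2** (G4, contradiction form): `θ` a character of the Hecke algebra of level `M' p`
which is not `p`-old (`hnew`), `V ≤ J₀(M' p)[p]` a subgroup on which `T_ℓ = θ(T_ℓ)` (`ℓ ∉ S`).  Then
the pull-back to the good level `lcm M' 4 * p` of a class of `V` which lies in `X^f` lies in `K_p`. -/
def LeafC2 : Prop :=
  ∀ (p M' : ℕ) [NeZero M'] [NeZero p] (hp : p.Prime), 5 ≤ p → ∀ (hpM' : ¬ p ∣ M')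
    (S : Finset ℕ) (hpS : p ∈ S) (h2S : 2 ∈ S)
    (hNS : ∀ q : ℕ, q.Prime → q ∣ M' * p → q ∈ S)
    (θ : heckeAlgebra (M' * p) 2 (↑S : Set ℕ) →+* ZMod p),
    (∃ h : heckeAlgebra (M' * p) 2 (↑S : Set ℕ), θ h ≠ 0 ∧
      Fermat.Agent.S35x.levelHom (N := M') (q := p) (S := (↑S : Set ℕ))
        (fun q hq hqN => Finset.mem_coe.mpr (hNS q hq hqN)) h = 0) →
    ∀ (B : ValuationSubring Qb) (hB : B.LiesOverPrime p)
      (V : AddSubgroup (JTors (M' * p) (p ^ 1))),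
      EigenAt (M' * p) (p ^ 1) S (thetaVal θ) V →
      haveI := neZero_lcm_four M'
      ∀ (hpM : ¬ p ∣ Nat.lcm M' 4),
      ∀ x ∈ V,
        pullbackTors (Nat.mul_dvd_mul_right (Nat.dvd_lcm_left M' 4) p) (p ^ 1) x ∈
            XfTors (Nat.lcm M' 4) p hp hpM B hB →
          pullbackTors (Nat.mul_dvd_mul_right (Nat.dvd_lcm_left M' 4) p) (p ^ 1) x ∈
            KmTors (Nat.lcm M' 4) p hp hpM B hB (p ^ 1)

/-- **GEO' from the three blocks**, in the `JTors` vocabulary: `E` any Hecke action on the torsion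
of `J₀(M' p)` (export contract), `instMod` any `𝔽_p`-module structure on `J₀(M' p)[p]`. -/
theorem geo_of_leaves (𝒩 : NodeSets) (h3 : LeafC3 𝒩) (hD : LeafDIAG 𝒩) (h2 : LeafC2)
    {p M' : ℕ} [NeZero M'] [NeZero p] (hp : p.Prime) (hp5 : 5 ≤ p) (hpM' : ¬ p ∣ M')
    (S : Finset ℕ) (hpS : p ∈ S) (h2S : 2 ∈ S)
    (hNS : ∀ q : ℕ, q.Prime → q ∣ M' * p → q ∈ S)
    (E : HeckeTorsionAction (M' * p) S)
    [instMod : Module (ZMod p) (JTors (M' * p) (p ^ 1))]
    (θ : heckeAlgebra (M' * p) 2 (↑S : Set ℕ) →+* ZMod p)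
    (hNE : ∃ (l : ℕ) (hl : l.Prime) (hlN : ¬ l ∣ M' * p) (hlS : l ∉ (↑S : Set ℕ)),
      θ (heckeAlgebra.T hl hlN hlS) ≠ (l : ZMod p) + 1)
    (hnew : ∃ h : heckeAlgebra (M' * p) 2 (↑S : Set ℕ), θ h ≠ 0 ∧
      Fermat.Agent.S35x.levelHom (N := M') (q := p) (S := (↑S : Set ℕ))
        (fun q hq hqN => Finset.mem_coe.mpr (hNS q hq hqN)) h = 0)
    (B : ValuationSubring Qb) (hB : B.LiesOverPrime p)
    (V L : AddSubgroup (JTors (M' * p) (p ^ 1))) (hshape : GeoShape p (M' * p) B V L)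
    (hVθ : ∀ x ∈ V, ∀ t, E.eta (p ^ 1) (pow_pos hp.pos 1) t x = θ t • x) : False := by
  have hp2 : p ≠ 2 := by omega
  haveI := neZero_lcm_four M'
  have hpM : ¬ p ∣ Nat.lcm M' 4 := not_dvd_lcm_four hp hp2 hpM'
  -- G0: transfer to the good level
  obtain ⟨hshape', heig', -⟩ := g0 hp hp2 S E θ B V L hshape hVθ
  have heig : EigenAt (M' * p) (p ^ 1) S (thetaVal θ) V :=
    eigenAt_of_eta E (pow_pos hp.pos 1) θ V hVθ
  -- the primes of the good level lie in `S`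
  have hS' : ∀ q : ℕ, q.Prime → q ∣ Nat.lcm M' 4 * p → q ∈ S := by
    intro q hq hqd
    by_contra hqS
    exact not_dvd_goodLevel h2S hNS hq hqS hqd
  -- non-Eisenstein
  have hNE' : ∃ l : ℕ, l.Prime ∧ l ∉ S ∧ ((thetaVal θ l : ℕ) : ZMod p) ≠ (l : ZMod p) + 1 := by
    obtain ⟨l, hl, hlN, hlS, hne⟩ := hNE
    refine ⟨l, hl, fun h => hlS (Finset.mem_coe.mpr h), ?_⟩
    rw [thetaVal_cast θ hl hlN hlS]
    exact hne
  refine geo_goodLevel (hp := hp) (hpM := hpM) (hB := hB) hp2 (four_dvd_lcm M') hshape'.le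
    hshape'.ne hshape'.hb hshape'.hc
    (𝒩 (Nat.lcm M' 4) p hp hpM B hB).1 (𝒩 (Nat.lcm M' 4) p hp hpM B hB).2
    (h3 (Nat.lcm M' 4) p hp hpM B hB hp5 (four_dvd_lcm M') _ _ hshape')
    (hD (Nat.lcm M' 4) p hp hpM B hB hp5 (four_dvd_lcm M') S (thetaVal θ) hS' hNE' _ _ hshape'
      heig')
    ?_
  rintro y ⟨x, hx, rfl⟩ hy
  exact h2 p M' hp hp5 hpM' S hpS h2S hNS θ hnew B hB V heig hpM x hx hy

end Fermat.Agent.S40x.Geo.FinalLeaves
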