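import Fermat.Agent.S40x.Geo.FinalV2

/-!
# P-S44, GEO: `LeafGEO'` from the three blocks, VERSION 3 (weakest form of the DIAG literal)
(helper21)

`BlockDIAG'` of `Geo/FinalV2` asks `IsDiagonal nodeInf nodeZero x c → c = 0` for every `c`; this is
only true if the node family is non-empty (lead's literal check).  The assembly only needs the
consequence "`x` has all slopes `0`", i.e. `x ∈ X^f`.  This file provides

* `leafGEO'_of_ctx2` : `LeafGEO'` from ANY refutation of the context `Ctx2` (the most general entry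
  point: `(∀ …, Ctx2 p M' M₀ S θ B V L → False) → LeafGEO'`);
* `BlockDIAG3` : `Ctx2 → ∀ x ∈ V̂, ∀ c, IsDiagonal … x c → x ∈ XfTors` (always true once it is true for
  the real node family, also when there are no nodes); `blockDIAG3_of_blockDIAG'`,
  `blockDIAG3_of_isDiagonal_zero` (from `IsDiagonal x c → IsDiagonal x 0`);
* `BlockC3DIAG` : the two blocks C3 and DIAG merged (`L̂ ≤ K_p → V̂ ≤ X^f`), no node family at all;
* `leafGEO'_of_blocks3 : BlockC3' nodeInf nodeZero → BlockDIAG3 nodeInf nodeZero → BlockC2' →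
  LeafGEO'` and `leafGEO'_of_two : BlockC3DIAG → BlockC2' → LeafGEO'`.
-/

set_option autoImplicit false
set_option linter.unusedSectionVars false
set_option linter.unusedVariables false
set_option linter.style.haveILetI false

noncomputable section

namespace Fermat.Agent.S40x.Geo.FinalV3

open CuspForm ModularCurve AlgebraicCurve
open Fermat.Agent.Gateway.S31Red
open Fermat.Agent.S33x.KummerPn
open Fermat.Agent.S33x.Consumer.LevelTransport
open Fermat.Agent.S40x.Geo.Vocab Fermat.Agent.S40x.Geo.Main Fermat.Agent.S40x.Geo.Final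
open Fermat.Agent.S40x.Geo.FinalV2
open Fermat.Agent.S40x.Level.G0

local notation "Qb" => AlgebraicClosure ℚ
local notation "Γℚ" => (AlgebraicClosure ℚ ≃ₐ[ℚ] AlgebraicClosure ℚ)

/-- **`LeafGEO'` from any refutation of the context `Ctx2`** at the good level. -/
theorem leafGEO'_of_ctx2
    (H : ∀ (p M' M₀ : ℕ) [NeZero M'] [NeZero p] [NeZero M₀] (S : Finset ℕ)
      (θ : heckeAlgebra (M' * p) 2 (↑S : Set ℕ) →+* ZMod p) (B : ValuationSubring Qb)
      (V L : AddSubgroup (JTors (M₀ * p) (p ^ 1))), Ctx2 p M' M₀ S θ B V L → False) :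
    Fermat.Agent.S40x.A.S44SkeletonV2.LeafGEO' :=
  leafGEO'_of_blocks' (nodeInf := fun _ _ _ => ∅) (nodeZero := fun _ _ _ => ∅)
    (fun p M' M₀ _ _ _ hp hpM S θ B hB V L hctx _ x hx => (H p M' M₀ S θ B V L hctx).elim)
    (fun p M' M₀ _ _ _ hp hpM S θ B hB V L hctx x hx c _ => (H p M' M₀ S θ B V L hctx).elim)
    (fun p M' M₀ _ _ _ hp hpM S θ B hB V L hctx x hx _ => (H p M' M₀ S θ B V L hctx).elim)

/-- **the group-theoretic core at the good level**: in the context `Ctx2`, `L̂ ≤ K_p` cannot imply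
`V̂ ≤ K_p`. -/
theorem false_of_ctx2_of_le {p M' M₀ : ℕ} [NeZero M'] [NeZero p] [NeZero M₀] {S : Finset ℕ}
    {θ : heckeAlgebra (M' * p) 2 (↑S : Set ℕ) →+* ZMod p} {B : ValuationSubring Qb}
    {V L : AddSubgroup (JTors (M₀ * p) (p ^ 1))} (h : Ctx2 p M' M₀ S θ B V L)
    (hK : L ≤ KmTors M₀ p h.prime h.not_dvd_good B h.liesOver (p ^ 1) →
      V ≤ KmTors M₀ p h.prime h.not_dvd_good B h.liesOver (p ^ 1)) : False := by
  have hp2 : p ≠ 2 := by have := h.five_le; omega
  exact geo_core (hp := h.prime) (hpM := h.not_dvd_good) (hB := h.liesOver) hp2 h.four_dvd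
    h.shape.le h.shape.ne h.shape.hb h.shape.hc hK

/-- **Block DIAG, weakest form**: a class of `V̂` with a diagonal slope vector lies in `X^f`. -/
def BlockDIAG3 (nodeInf nodeZero : NodeFamily) : Prop :=
  ∀ (p M' M₀ : ℕ) [NeZero M'] [NeZero p] [NeZero M₀] (hp : p.Prime) (hpM : ¬ p ∣ M₀)
    (S : Finset ℕ) (θ : heckeAlgebra (M' * p) 2 (↑S : Set ℕ) →+* ZMod p)
    (B : ValuationSubring Qb) (hB : B.LiesOverPrime p)
    (V L : AddSubgroup (JTors (M₀ * p) (p ^ 1))), Ctx2 p M' M₀ S θ B V L →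
    ∀ x ∈ V, ∀ c : ZMod p,
      IsDiagonal (hp := hp) (hpM := hpM) (hB := hB) (nodeInf M₀ p B) (nodeZero M₀ p B)
        (x : JZero (M₀ * p)) c → x ∈ XfTors M₀ p hp hpM B hB

/-- from `IsDiagonal x c → IsDiagonal x 0`. -/
theorem blockDIAG3_of_isDiagonal_zero {nodeInf nodeZero : NodeFamily}
    (h : ∀ (p M' M₀ : ℕ) [NeZero M'] [NeZero p] [NeZero M₀] (hp : p.Prime) (hpM : ¬ p ∣ M₀)
      (S : Finset ℕ) (θ : heckeAlgebra (M' * p) 2 (↑S : Set ℕ) →+* ZMod p)
      (B : ValuationSubring Qb) (hB : B.LiesOverPrime p)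
      (V L : AddSubgroup (JTors (M₀ * p) (p ^ 1))), Ctx2 p M' M₀ S θ B V L →
      ∀ x ∈ V, ∀ c : ZMod p,
        IsDiagonal (hp := hp) (hpM := hpM) (hB := hB) (nodeInf M₀ p B) (nodeZero M₀ p B)
          (x : JZero (M₀ * p)) c →
        IsDiagonal (hp := hp) (hpM := hpM) (hB := hB) (nodeInf M₀ p B) (nodeZero M₀ p B)
          (x : JZero (M₀ * p)) 0) :
    BlockDIAG3 nodeInf nodeZero :=
  fun p M' M₀ _ _ _ hp hpM S θ B hB V L hctx x hx c hd =>
    mem_XfTors_iff.mpr (mem_XfQb_of_isDiagonal_zero (zsmul_coe_eq_zero x)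
      (h p M' M₀ hp hpM S θ B hB V L hctx x hx c hd))

/-- the `c = 0` literal of `FinalV2` implies the weakest form. -/
theorem blockDIAG3_of_blockDIAG' {nodeInf nodeZero : NodeFamily}
    (h : BlockDIAG' nodeInf nodeZero) : BlockDIAG3 nodeInf nodeZero :=
  blockDIAG3_of_isDiagonal_zero fun p M' M₀ _ _ _ hp hpM S θ B hB V L hctx x hx c hd => by
    have hc0 : c = 0 := h p M' M₀ hp hpM S θ B hB V L hctx x hx c hd
    subst hc0
    exact hd

/-- **Blocks C3 and DIAG merged**: once `L̂ ≤ K_p`, every class of `V̂` lies in `X^f`. -/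
def BlockC3DIAG : Prop :=
  ∀ (p M' M₀ : ℕ) [NeZero M'] [NeZero p] [NeZero M₀] (hp : p.Prime) (hpM : ¬ p ∣ M₀)
    (S : Finset ℕ) (θ : heckeAlgebra (M' * p) 2 (↑S : Set ℕ) →+* ZMod p)
    (B : ValuationSubring Qb) (hB : B.LiesOverPrime p)
    (V L : AddSubgroup (JTors (M₀ * p) (p ^ 1))), Ctx2 p M' M₀ S θ B V L →
    L ≤ KmTors M₀ p hp hpM B hB (p ^ 1) → ∀ x ∈ V, x ∈ XfTors M₀ p hp hpM B hB

theorem blockC3DIAG_of_blocks {nodeInf nodeZero : NodeFamily} (h3 : BlockC3' nodeInf nodeZero)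
    (hD : BlockDIAG3 nodeInf nodeZero) : BlockC3DIAG :=
  fun p M' M₀ _ _ _ hp hpM S θ B hB V L hctx hLK x hx => by
    obtain ⟨c, hc⟩ := h3 p M' M₀ hp hpM S θ B hB V L hctx hLK x hx
    exact hD p M' M₀ hp hpM S θ B hB V L hctx x hx c hc

/-- **`LeafGEO'` from the merged block C3+DIAG and the block C2.** -/
theorem leafGEO'_of_two (h3D : BlockC3DIAG) (h2 : BlockC2') :
    Fermat.Agent.S40x.A.S44SkeletonV2.LeafGEO' :=
  leafGEO'_of_ctx2 fun p M' M₀ _ _ _ S θ B V L hctx =>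
    false_of_ctx2_of_le hctx fun hLK x hx =>
      h2 p M' M₀ hctx.prime hctx.not_dvd_good S θ B hctx.liesOver V L hctx x hx
        (h3D p M' M₀ hctx.prime hctx.not_dvd_good S θ B hctx.liesOver V L hctx hLK x hx)

/-- **`LeafGEO'` from the three blocks (version 3: weakest DIAG literal).** -/
theorem leafGEO'_of_blocks3 {nodeInf nodeZero : NodeFamily} (h3 : BlockC3' nodeInf nodeZero)
    (hD : BlockDIAG3 nodeInf nodeZero) (h2 : BlockC2') :
    Fermat.Agent.S40x.A.S44SkeletonV2.LeafGEO' :=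
  leafGEO'_of_two (blockC3DIAG_of_blocks h3 hD) h2

end Fermat.Agent.S40x.Geo.FinalV3
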