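import Fermat.Agent.S40x.Geo.Vocab
import Fermat.Agent.S40x.Level.G0
import Fermat.Agent.S40x.A.QSeriesSpan

/-!
# P-S44, GEO: the consumer hypothesis `hG4` of `Geo/Main.geo_goodLevel` from the POSITIVE output of
block C2 (helper28)

`N = M' p`, `M₀ = lcm M' 4`, `N̂ = M₀ p`, `V̂ ≤ J₀(N̂)[p]` with the elementwise eigen-relations
`EigenAt N̂ (p ^ 1) S (thetaVal θ) V̂` of `Level/G0` for a NEW character `θ` of the Hecke algebra of
level `N` (`hnew`).  Block C2 (route OMEGA: `C2/AsmAbs` + descent) produces, for a class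
`x ∈ V̂ ∩ X^f` which is NOT in `K_p`, a nonzero `q`-series `g` in the span of the reduced
`q`-expansions of a saturated integral basis of `S₂(Γ₀(M'))` with
`T_ℓ g = θ(T_ℓ) g` for all primes `ℓ ∉ S` (`C2Out`).  By `NewKill` this contradicts `hnew`; hence

  `hG4 : ∀ x ∈ V̂, x ∈ XfTors → x ∈ KmTors`,

the third consumer hypothesis of `Geo/Main.geo_goodLevel`, literally.
-/

set_option autoImplicit false
set_option linter.unusedSectionVars false
set_option linter.style.haveILetI false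

noncomputable section

namespace Fermat.Agent.S40x.Geo.G4Glue

open ModularCurve AlgebraicCurve CuspForm CongruenceSubgroup UpperHalfPlane
open Fermat.Agent.Gateway.S31Red
open Fermat.Agent.S33x.KummerPn
open Fermat.Agent.S40x.Geo.Vocab Fermat.Agent.S40x.Level.G0
open Fermat.Agent.S40x.A.QSeriesSpan

local notation "Qb" => AlgebraicClosure ℚ

/-- **The positive output of block C2** for the eigenvalue function `a`: a nonzero `q`-series over
`k` in the span of the reductions of the integral basis `qf` of level `M'`, eigen for the formal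
weight two Hecke operators `T_ℓ`, `ℓ ∉ S`, `ℓ ∤ M'`, with eigenvalues `a ℓ`. -/
def C2Out (M' : ℕ) (S : Finset ℕ) (a : ℕ → ℕ) (k : Type) [Field k] {r : ℕ}
    (qf : Fin r → PowerSeries ℤ) : Prop :=
  ∃ g : LaurentSeries k, g ∈ redSpan k qf ∧ g ≠ 0 ∧
    ∀ (l : ℕ) (hl : l.Prime), ¬ l ∣ M' → l ∉ (↑S : Set ℕ) →
      haveI : NeZero l := ⟨hl.ne_zero⟩
      Fermat.Agent.S40x.C2.DlogHecke.heckeT l g = (((a l : ℕ) : ℤ) : k) • g

/-- **`C2Out` for the eigenvalues of a new character is contradictory.** -/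
theorem false_of_c2Out {M' p : ℕ} [NeZero M'] [NeZero p] (hp : p.Prime) (S : Finset ℕ)
    (hNS : ∀ q : ℕ, q.Prime → q ∣ M' * p → q ∈ S)
    (θ : heckeAlgebra (M' * p) 2 (↑S : Set ℕ) →+* ZMod p)
    (hnew : ∃ h : heckeAlgebra (M' * p) 2 (↑S : Set ℕ), θ h ≠ 0 ∧
      Fermat.Agent.S35x.levelHom (N := M') (q := p) (S := (↑S : Set ℕ))
        (fun q hq hqN => Finset.mem_coe.mpr (hNS q hq hqN)) h = 0)
    {k : Type} [Field k] [CharP k p] {r : ℕ}
    (f : Fin r → CuspForm (Gamma0 M') 2) (qf : Fin r → PowerSeries ℤ)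
    (hqf : ∀ i, qExpansion 1 (f i) = (qf i).map (Int.castRingHom ℂ))
    (hsat : LinearIndependent (ZMod p) (fun i => (qf i).map (Int.castRingHom (ZMod p))))
    (hout : C2Out M' S (thetaVal θ) k qf) : False := by
  obtain ⟨g, hgS, hg0, heig⟩ := hout
  refine false_of_new_of_mem_span hp S (fun q hq hqN => Finset.mem_coe.mpr (hNS q hq hqN)) θ hnew
    (fun l => ((thetaVal θ l : ℕ) : ℤ)) (fun l hl hlN hlS => ?_) f qf hqf hsat g hgS hg0
    (fun l hl hlM hlS => heig l hl hlM hlS)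
  rw [Int.cast_natCast, thetaVal_cast θ hl hlN hlS]

/-- **`hG4` of `Geo/Main.geo_goodLevel` from the positive output of block C2.**  `M₀` is any good
level (`M₀ = lcm M' 4` in the application); the hypothesis `hC2` is what `C2/AsmAbs` (instance) +
descent must deliver for every class of `V̂` in `X^f` outside `K_p`. -/
theorem hG4_of_c2 {M' M₀ p : ℕ} [NeZero M'] [NeZero M₀] [NeZero p] (hp : p.Prime)
    (hpM : ¬ p ∣ M₀) (B : ValuationSubring Qb) (hB : B.LiesOverPrime p) (S : Finset ℕ)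
    (hNS : ∀ q : ℕ, q.Prime → q ∣ M' * p → q ∈ S)
    (θ : heckeAlgebra (M' * p) 2 (↑S : Set ℕ) →+* ZMod p)
    (hnew : ∃ h : heckeAlgebra (M' * p) 2 (↑S : Set ℕ), θ h ≠ 0 ∧
      Fermat.Agent.S35x.levelHom (N := M') (q := p) (S := (↑S : Set ℕ))
        (fun q hq hqN => Finset.mem_coe.mpr (hNS q hq hqN)) h = 0)
    {k : Type} [Field k] [CharP k p] {r : ℕ}
    (f : Fin r → CuspForm (Gamma0 M') 2) (qf : Fin r → PowerSeries ℤ)
    (hqf : ∀ i, qExpansion 1 (f i) = (qf i).map (Int.castRingHom ℂ))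
    (hsat : LinearIndependent (ZMod p) (fun i => (qf i).map (Int.castRingHom (ZMod p))))
    (V : AddSubgroup (JTors (M₀ * p) (p ^ 1)))
    (hC2 : ∀ x ∈ V, x ∈ XfTors M₀ p hp hpM B hB → x ∉ KmTors M₀ p hp hpM B hB (p ^ 1) →
      C2Out M' S (thetaVal θ) k qf) :
    ∀ x ∈ V, x ∈ XfTors M₀ p hp hpM B hB → x ∈ KmTors M₀ p hp hpM B hB (p ^ 1) := by
  intro x hxV hxf
  by_contra hxK
  exact false_of_c2Out hp S hNS θ hnew f qf hqf hsat (hC2 x hxV hxf hxK)

end Fermat.Agent.S40x.Geo.G4Glue
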