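import Fermat.Agent.S33x.KummerPn
import Fermat.Agent.S33x.Consumer.Conj
import Fermat.Agent.S56x.Local.CycloInertiaP

/-!
# P-S44, GEO step G1 (helper22): the cyclotomic line lies in `K_m`, for free

`B` a valuation subring of `ℚ̄` over the odd prime `p`, `I` its inertia group.

* `exists_inertia_apply_ne` : some `σ ∈ I` moves a `p`-th root of unity (transport of the landed
  `S56x/Local/CycloInertiaP.exists_inertia_apply_ne` from `padicPlace p` to `B` by conjugation);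
* `exists_inertia_pow` : hence `σ ∈ I` and `a : ℕ` with `σ ζ = ζ ^ a` for ALL `ζ ∈ μ_p` and
  `a ≢ 1 mod p`;
* `le_KmTors_of_cyclo` : a subgroup `L` of `J₀(M₀ p)[p ^ n]` killed by `p` on which `I` acts through
  the mod `p` cyclotomic character (hypothesis `hc` of the literal `s44_geo'`) is contained in
  `KmTors`: `(a - 1) • s = σ s - s ∈ KmTors` by the landed `KummerPn.galTors_sub_mem_KmTors`
  ((i) of S33, valid for EVERY `x` and every exponent) and `a - 1` is invertible modulo `p`.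
-/

set_option autoImplicit false

noncomputable section

namespace Fermat.Agent.S40x.Geo.LineInK

open ModularCurve AlgebraicCurve
open Fermat.Agent.Gateway.S31Red Fermat.Agent.S33x.KummerPn
open scoped Pointwise

local notation "Γℚ" => (AlgebraicClosure ℚ ≃ₐ[ℚ] AlgebraicClosure ℚ)
local notation "Qb" => AlgebraicClosure ℚ

/-- **The inertia group of ANY place over an odd `p` moves `μ_p`.** -/
theorem exists_inertia_apply_ne {p : ℕ} (hp : p.Prime) (hp2 : p ≠ 2) (B : ValuationSubring Qb)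
    (hB : B.LiesOverPrime p) :
    ∃ σ ∈ B.inertiaSubgroupIn ℚ, ∃ μ : Qb, μ ^ p = 1 ∧ σ μ ≠ μ := by
  have : Fact p.Prime := ⟨hp⟩
  have hgal : IsGalois ℚ Qb := Fermat.Agent.Lib.CFT.Profinite.Bridge.isGalois_qbar
  obtain ⟨σ0, hσ0, μ0, hμ0, hne⟩ :=
    Fermat.Agent.S56x.Local.CycloInertiaP.exists_inertia_apply_ne p hp2
  obtain ⟨g, hg⟩ := Fermat.Agent.S56x.Cheb.exists_smul_eq_of_liesOverPrime hp (padicPlace p) B
    (Fermat.Agent.S48x.Lift.padicPlace_liesOverPrime p) hB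
  refine ⟨g * σ0 * g⁻¹, ?_, g μ0, ?_, ?_⟩
  · rw [← hg, Fermat.Agent.Lib.CFT.Profinite.Bridge.mem_inertiaSubgroupIn_smul_iff]
    have : g⁻¹ * (g * σ0 * g⁻¹) * g = σ0 := by group
    rw [this]
    exact hσ0
  · rw [← map_pow, hμ0, map_one]
  · intro h
    apply hne
    have h1 : (g * σ0 * g⁻¹) (g μ0) = g (σ0 μ0) := by
      show g (σ0 (g⁻¹ (g μ0))) = g (σ0 μ0)
      congr 2
      exact g.symm_apply_apply μ0
    rw [h1] at h
    exact g.injective h

/-- `σ ∈ I` acting on `μ_p` by `ζ ↦ ζ ^ a` with `a ≢ 1 mod p`. -/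
theorem exists_inertia_pow {p : ℕ} (hp : p.Prime) (hp2 : p ≠ 2) (B : ValuationSubring Qb)
    (hB : B.LiesOverPrime p) :
    ∃ σ ∈ B.inertiaSubgroupIn ℚ, ∃ a : ℕ, (∀ ζ : Qb, ζ ^ p = 1 → σ ζ = ζ ^ a) ∧
      ¬ (p : ℤ) ∣ (a : ℤ) - 1 := by
  obtain ⟨σ, hσ, μ, hμ, hne⟩ := exists_inertia_apply_ne hp hp2 B hB
  have hμ1 : μ ≠ 1 := by
    rintro rfl
    exact hne (map_one σ)
  have : Fact p.Prime := ⟨hp⟩
  have : NeZero p := ⟨hp.ne_zero⟩
  have hprim : IsPrimitiveRoot μ p := by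
    have h := IsPrimitiveRoot.orderOf μ
    rwa [orderOf_eq_prime hμ hμ1] at h
  have hσμ : (σ μ) ^ p = 1 := by rw [← map_pow, hμ, map_one]
  obtain ⟨a, -, ha⟩ := hprim.eq_pow_of_pow_eq_one hσμ
  refine ⟨σ, hσ, a, ?_, ?_⟩
  · intro ζ hζ
    obtain ⟨i, -, rfl⟩ := hprim.eq_pow_of_pow_eq_one hζ
    rw [map_pow, ← ha, ← pow_mul, ← pow_mul, mul_comm]
  · intro hdvd
    apply hne
    rw [← ha]
    -- `μ ^ a = μ` since `a ≡ 1 mod p`
    have h0 : μ ^ ((a : ℤ) - 1) = 1 := (hprim.zpow_eq_one_iff_dvd _).mpr hdvd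
    have hμ0 : μ ≠ 0 := hprim.ne_zero hp.ne_zero
    have h2 : μ ^ (a : ℤ) = μ ^ ((a : ℤ) - 1) * μ := by
      rw [← zpow_add_one₀ hμ0]
      congr 1
      ring
    rw [zpow_natCast, h0, one_mul] at h2
    exact h2

variable {M₀ p : ℕ} [NeZero M₀] [NeZero p] {hp : p.Prime} {hpM : ¬ p ∣ M₀}
  {B : ValuationSubring Qb} {hB : B.LiesOverPrime p}

/-- **G1: the cyclotomic line lies in `K_m`.** -/
theorem le_KmTors_of_cyclo (hp2 : p ≠ 2) {n : ℕ}
    (L : AddSubgroup (JTors (M₀ * p) (p ^ n)))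
    (hLp : ∀ s ∈ L, p • s = 0)
    (hc : ∀ σ ∈ B.inertiaSubgroupIn ℚ, ∀ a : ℕ, (∀ ζ : Qb, ζ ^ p = 1 → σ ζ = ζ ^ a) →
      ∀ s ∈ L, galTors (M₀ * p) (p ^ n) σ s = a • s) :
    L ≤ KmTors M₀ p hp hpM B hB (p ^ n) := by
  obtain ⟨σ, hσ, a, ha, hdvd⟩ := exists_inertia_pow hp hp2 B hB
  intro s hs
  have h1 : galTors (M₀ * p) (p ^ n) σ s - s ∈ KmTors M₀ p hp hpM B hB (p ^ n) :=
    galTors_sub_mem_KmTors (pow_pos hp.pos n) σ hσ s
  rw [hc σ hσ a ha s hs] at h1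
  -- `(a - 1) • s ∈ K`, and `a - 1` is invertible modulo `p`
  have h2 : ((a : ℤ) - 1) • s ∈ KmTors M₀ p hp hpM B hB (p ^ n) := by
    rw [sub_smul, one_smul, natCast_zsmul]
    exact h1
  have hcop : IsCoprime ((a : ℤ) - 1) (p : ℤ) :=
    ((Nat.prime_iff_prime_int.mp hp).coprime_iff_not_dvd.mpr hdvd).symm
  obtain ⟨u, v, huv⟩ := hcop
  have h3 : s = u • (((a : ℤ) - 1) • s) := by
    have hps : (p : ℤ) • s = 0 := by rw [natCast_zsmul]; exact hLp s hs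
    calc s = (1 : ℤ) • s := (one_smul _ _).symm
      _ = (u * ((a : ℤ) - 1) + v * (p : ℤ)) • s := by rw [huv]
      _ = u • (((a : ℤ) - 1) • s) + v • ((p : ℤ) • s) := by
          rw [add_zsmul, mul_comm u, mul_zsmul, mul_comm v, mul_zsmul, smul_comm u, smul_comm v]
      _ = u • (((a : ℤ) - 1) • s) := by rw [hps, smul_zero, add_zero]
  rw [h3]
  exact (KmTors M₀ p hp hpM B hB (p ^ n)).zsmul_mem h2 u

end Fermat.Agent.S40x.Geo.LineInK
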