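import Fermat.Agent.S33x.Consumer.Final
import Fermat.Agent.S33x.Cech.Inst
import Fermat.Agent.S33x.Cech.InstQbCtx

/-!
# P-S44, GEO step G5 (helper22): `K_m` has no inertia-trivial subquotient, at EVERY place over `p`

The landed proof of S33 establishes `OrdPts` for `J₀(M₀ p)[p ^ n]` through approximate charts on
the subgroup `KmTors` (`S33x/Cech/InstQb.hasApproxCharts_of_genAt`) and LAYER 3
(`S33x/L3/AssembleDone.noTrivOfCharts`), but only exports the existential statement `OrdPts`.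
The S44 assembly needs the statement for the subgroup `KmTors` ITSELF and for an ARBITRARY
valuation subring `P0` of `ℚ̄` over `p`:

* `noTriv_KmTors` : `Consumer.Ord.NoTriv (inertia of P0) galTors (KmTors M₀ p .. P0 .. (p ^ n))` at
  every good level `M₀ p` (`p` odd, `p ∤ M₀`, `4 ∣ M₀`);
* `not_le_KmTors` : consumer form: if `L ≤ V ≤ J₀(M₀ p)[p ^ n]`, the inertia group acts trivially on
  `V / L` and `L ≠ V`, then `V` is NOT contained in `KmTors`.

Together with the landed `KummerPn.galTors_sub_mem_KmTors` (`τ x - x ∈ KmTors` for every `x`) these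
are the two facts (i), (ii) about `K_m` used by the skeleton of S44.
-/

set_option autoImplicit false

noncomputable section

namespace Fermat.Agent.S40x.Geo.NoTrivKm

open ModularCurve AlgebraicCurve CuspForm CuspForm.HeckeGaloisRepDatum
open Fermat.Agent.Gateway.S31Red Fermat.Agent.S33x.Consumer.Ord
open Fermat.Agent.S33x.Consumer.OfSubgroup Fermat.Agent.S33x.Iface
open Fermat.Agent.S33x.KummerPn Fermat.Agent.S33x.Cech.InstQb Fermat.Agent.S33x.Cech.InstQbCtx

local notation "Γℚ" => (AlgebraicClosure ℚ ≃ₐ[ℚ] AlgebraicClosure ℚ)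
local notation "Qb" => AlgebraicClosure ℚ

/-- the generic Čech theorem in the shape consumed by `InstQbCtx` (as in `Fermat/Agent/S33.lean`) -/
theorem chartsMqGen : ChartsMqGen :=
  fun H hA _ x hx Hx hxk hY hD hF n _ =>
    Fermat.Agent.S33x.Cech.Inst.chartsMq_gen H hA x hx Hx hxk hY hD hF n

variable (M₀ p : ℕ) [NeZero M₀] [NeZero p] (hp : p.Prime) (hp2 : p ≠ 2) (hpM : ¬ p ∣ M₀)
  (h4 : 4 ∣ M₀) (P0 : ValuationSubring Qb) (hP0 : P0.LiesOverPrime p) (n : ℕ)

include hp2 h4 in
/-- approximate charts on `KmTors` at an arbitrary place over `p` -/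
theorem hasApproxCharts_KmTors :
    HasApproxCharts p P0 (KmTors M₀ p hp hpM P0 hP0 (p ^ n))
      (restrictAct (actT (M₀ * p) (p ^ n)) (KmTors M₀ p hp hpM P0 hP0 (p ^ n))) :=
  hasApproxCharts_of_genAt
    (genAt_of_generic_setOf M₀ p hp hpM P0 hP0 n
      (ChartsMqGen4.toGeneric (ChartsMqGen.to4 chartsMqGen)) hp2 h4
      (finite_KmQb (pow_pos hp.pos n)))

include hp2 h4 in
/-- **(ii)**: `KmTors` has no nonzero subquotient with trivial action of the inertia group of
`P0`, for every valuation subring `P0` of `ℚ̄` over `p`. -/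
theorem noTriv_KmTors :
    NoTriv (P0.inertiaSubgroupIn ℚ : Set Γℚ)
      (fun σ (x : JTors (M₀ * p) (p ^ n)) => galTors (M₀ * p) (p ^ n) σ x)
      (KmTors M₀ p hp hpM P0 hP0 (p ^ n)) := by
  set W := KmTors M₀ p hp hpM P0 hP0 (p ^ n) with hW
  set act : Γℚ → JTors (M₀ * p) (p ^ n) → JTors (M₀ * p) (p ^ n) := actT (M₀ * p) (p ^ n) with hact
  have h1 : ∀ τ ∈ (P0.inertiaSubgroupIn ℚ : Set Γℚ), ∀ x : JTors (M₀ * p) (p ^ n),
      act τ x - x ∈ W := galTors_sub_mem_KmTors (pow_pos hp.pos n)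
  have hcompat : ∀ τ ∈ (P0.inertiaSubgroupIn ℚ : Set Γℚ), ∀ w : W,
      ((restrictAct act W τ w : W) : JTors (M₀ * p) (p ^ n)) = act τ (w : _) :=
    fun τ hτ w => coe_restrictAct act W h1 hτ w
  have : NeZero (M₀ * p) := ⟨mul_ne_zero (NeZero.ne M₀) hp.ne_zero⟩
  have : Finite (JTors (M₀ * p) (p ^ n)) :=
    Fermat.Agent.Gateway.Assembly.finite_JTors
      (Fermat.Agent.Gateway.Export.coreInputs (M₀ * p)
        (Fermat.Agent.Gateway.Export.d5Input (M₀ * p))) (p ^ n) (pow_pos hp.pos n)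
  have hch := hasApproxCharts_KmTors M₀ p hp hp2 hpM h4 P0 hP0 n
  -- LAYER 3 on the group `↥W`
  have h2 : ∀ A B : AddSubgroup W, A ≤ B →
      (∀ τ ∈ P0.inertiaSubgroupIn ℚ, ∀ a ∈ A, restrictAct act W τ a ∈ A) →
      (∀ τ ∈ P0.inertiaSubgroupIn ℚ, ∀ y ∈ B, restrictAct act W τ y - y ∈ A) → B ≤ A := by
    refine Fermat.Agent.S33x.L3.AssembleDone.noTrivOfCharts p hp hp2 P0 hP0 W
      (restrictAct act W) ?_ ?_ ?_ ?_ hch
    · intro x
      apply Subtype.ext
      rw [hcompat 1 (one_mem _)]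
      show galTors (M₀ * p) (p ^ n) 1 (x : _) = x
      rw [map_one]
      rfl
    · intro σ hσ τ hτ x
      apply Subtype.ext
      rw [hcompat _ (mul_mem hσ hτ), hcompat σ hσ, hcompat τ hτ]
      show galTors (M₀ * p) (p ^ n) (σ * τ) (x : _) = _
      rw [map_mul]
      rfl
    · intro σ hσ x y
      apply Subtype.ext
      rw [AddSubgroup.coe_add, hcompat σ hσ, hcompat σ hσ, hcompat σ hσ, AddSubgroup.coe_add]
      exact map_add (galTors (M₀ * p) (p ^ n) σ) _ _
    · intro x
      refine ⟨n, Subtype.ext ?_⟩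
      have := nsmul_coe_eq_zero (x : JTors (M₀ * p) (p ^ n))
      rw [AddSubgroup.coe_nsmul, AddSubgroup.coe_zero]
      exact Subtype.ext (by rw [AddSubgroup.coe_nsmul, this, AddSubgroup.coe_zero])
  -- back to subgroups of the ambient group
  intro A B hAB hBW h
  have key : B.comap W.subtype ≤ A.comap W.subtype := by
    refine h2 _ _ (AddSubgroup.comap_mono hAB) ?_ ?_
    · intro τ hτ a ha
      show ((restrictAct act W τ a : W) : JTors (M₀ * p) (p ^ n)) ∈ A
      rw [hcompat τ hτ a]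
      have ha' : (a : JTors (M₀ * p) (p ^ n)) ∈ A := ha
      have : act τ (a : JTors (M₀ * p) (p ^ n)) =
          (act τ (a : JTors (M₀ * p) (p ^ n)) - (a : JTors (M₀ * p) (p ^ n))) + a := by abel
      rw [this]
      exact A.add_mem (h τ hτ _ (hAB ha')) ha'
    · intro τ hτ y hy
      show ((restrictAct act W τ y - y : W) : JTors (M₀ * p) (p ^ n)) ∈ A
      rw [AddSubgroup.coe_sub, hcompat τ hτ y]
      exact h τ hτ _ hy
  intro b hb
  have hb' : (⟨b, hBW hb⟩ : W) ∈ B.comap W.subtype := by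
    rw [AddSubgroup.mem_comap]
    exact hb
  have := key hb'
  rw [AddSubgroup.mem_comap] at this
  exact this

include hp2 h4 in
/-- **Consumer form of (ii).**  A subgroup `V` with a proper subgroup `L` such that the inertia
group of `P0` acts trivially on `V / L` is not contained in `KmTors`. -/
theorem not_le_KmTors {V L : AddSubgroup (JTors (M₀ * p) (p ^ n))} (hLV : L ≤ V) (hne : L ≠ V)
    (hb : ∀ τ ∈ P0.inertiaSubgroupIn ℚ, ∀ x ∈ V, galTors (M₀ * p) (p ^ n) τ x - x ∈ L) :
    ¬ V ≤ KmTors M₀ p hp hpM P0 hP0 (p ^ n) := fun hVK =>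
  hne (le_antisymm hLV
    (noTriv_KmTors M₀ p hp hp2 hpM h4 P0 hP0 n L V hLV hVK fun τ hτ b hb' => hb τ hτ b hb'))

end Fermat.Agent.S40x.Geo.NoTrivKm
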