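import Fermat.Agent.S40x.Geo.Vocab
import Fermat.Agent.S40x.Geo.NoTrivKm
import Fermat.Agent.S40x.Geo.LineInK

/-!
# P-S44, GEO: the assembly at the good level (helper22)

`M₀ p` a good level (`p` odd, `p ∤ M₀`, `4 ∣ M₀`), `B` a valuation subring of `ℚ̄` over `p`,
`L < V ≤ J₀(M₀ p)[p]` with the local shape of `s44_geo'` (board `S44_GEO`):

* `hb` : the inertia group `I` of `B` acts trivially on `V / L`;
* `hc` : `I` acts on `L` through the mod `p` cyclotomic character.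

The three geometric blocks enter as hypotheses in the vocabulary of `Geo/Vocab.lean`:

* `hC3` (block C3, `c3_diagonal` + `c3_flat`): once `L ≤ K_p`, every `x ∈ V` has a DIAGONAL slope
  vector (`c` at the node places of `κ_∞`, `-c` at the node places of `κ_0`, `0` elsewhere);
* `hG3` (block DIAG): for `x ∈ V` (a `T_ℓ`-eigenclass of a non-Eisenstein system) diagonal implies
  `c = 0`;
* `hG4` (block C2, route OMEGA, under `hnew`): a class of `V` in `X^f` lies in `K_p`.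

Conclusion: `False` (`geo_goodLevel`).  Proof: `L ≤ K_p` is free (`LineInK.le_KmTors_of_cyclo`, from
the landed (i) of S33); then `V ≤ K_p` by the three blocks; this contradicts (ii) of S33 for the
subgroup `K_p` itself (`NoTrivKm.not_le_KmTors`).
-/

set_option autoImplicit false
set_option linter.unusedSectionVars false

noncomputable section

namespace Fermat.Agent.S40x.Geo.Main

open ModularCurve AlgebraicCurve
open Fermat.Agent.Gateway.S31Red
open Fermat.Agent.S33x.KummerPn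
open Fermat.Agent.S40x.Geo.Vocab Fermat.Agent.S40x.Geo.NoTrivKm Fermat.Agent.S40x.Geo.LineInK

local notation "Qb" => AlgebraicClosure ℚ
local notation "Γℚ" => (AlgebraicClosure ℚ ≃ₐ[ℚ] AlgebraicClosure ℚ)

variable {M₀ p : ℕ} [NeZero M₀] [NeZero p] {hp : p.Prime} {hpM : ¬ p ∣ M₀}
  {B : ValuationSubring Qb} {hB : B.LiesOverPrime p}

/-- every element of `J₀(M₀ p)[p ^ 1]` is killed by `p` -/
theorem nsmul_eq_zero (s : JTors (M₀ * p) (p ^ 1)) : p • s = 0 := by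
  apply Subtype.ext
  have h : (p ^ 1) • (s : JZero (M₀ * p)) = 0 := nsmul_coe_eq_zero s
  rw [AddSubgroup.coe_nsmul, AddSubgroup.coe_zero]
  simpa using h

/-- **GEO at the good level, group-theoretic core**: if every element of `V` lies in `K_p` as soon
as `L ≤ K_p`, we get a contradiction. -/
theorem geo_core (hp2 : p ≠ 2) (h4 : 4 ∣ M₀)
    {V L : AddSubgroup (JTors (M₀ * p) (p ^ 1))} (hLV : L ≤ V) (hLne : L ≠ V)
    (hb : ∀ σ ∈ B.inertiaSubgroupIn ℚ, ∀ x ∈ V, galTors (M₀ * p) (p ^ 1) σ x - x ∈ L)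
    (hc : ∀ σ ∈ B.inertiaSubgroupIn ℚ, ∀ a : ℕ, (∀ ζ : Qb, ζ ^ p = 1 → σ ζ = ζ ^ a) →
      ∀ s ∈ L, galTors (M₀ * p) (p ^ 1) σ s = a • s)
    (hK : L ≤ KmTors M₀ p hp hpM B hB (p ^ 1) → V ≤ KmTors M₀ p hp hpM B hB (p ^ 1)) :
    False :=
  not_le_KmTors M₀ p hp hp2 hpM h4 B hB 1 hLV hLne hb
    (hK (le_KmTors_of_cyclo hp2 L (fun s _ => nsmul_eq_zero s) hc))

/-- **GEO at the good level** from the consumer theorems of the blocks C3, DIAG and C2. -/
theorem geo_goodLevel (hp2 : p ≠ 2) (h4 : 4 ∣ M₀)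
    {V L : AddSubgroup (JTors (M₀ * p) (p ^ 1))} (hLV : L ≤ V) (hLne : L ≠ V)
    (hb : ∀ σ ∈ B.inertiaSubgroupIn ℚ, ∀ x ∈ V, galTors (M₀ * p) (p ^ 1) σ x - x ∈ L)
    (hc : ∀ σ ∈ B.inertiaSubgroupIn ℚ, ∀ a : ℕ, (∀ ζ : Qb, ζ ^ p = 1 → σ ζ = ζ ^ a) →
      ∀ s ∈ L, galTors (M₀ * p) (p ^ 1) σ s = a • s)
    (nodeInf nodeZero : Set (Place (kB B) (FkB B M₀)))
    (hC3 : L ≤ KmTors M₀ p hp hpM B hB (p ^ 1) → ∀ x ∈ V, ∃ c : ZMod p,
      IsDiagonal (hp := hp) (hpM := hpM) (hB := hB) nodeInf nodeZero (x : JZero (M₀ * p)) c)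
    (hG3 : ∀ x ∈ V, ∀ c : ZMod p,
      IsDiagonal (hp := hp) (hpM := hpM) (hB := hB) nodeInf nodeZero (x : JZero (M₀ * p)) c →
        c = 0)
    (hG4 : ∀ x ∈ V, x ∈ XfTors M₀ p hp hpM B hB → x ∈ KmTors M₀ p hp hpM B hB (p ^ 1)) :
    False := by
  refine geo_core hp2 h4 hLV hLne hb hc fun hLK x hx => hG4 x hx ?_
  obtain ⟨c, hdiag⟩ := hC3 hLK x hx
  have hc0 : c = 0 := hG3 x hx c hdiag
  subst hc0
  exact mem_XfTors_iff.mpr (mem_XfQb_of_isDiagonal_zero (zsmul_coe_eq_zero x) hdiag)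

end Fermat.Agent.S40x.Geo.Main
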