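import Fermat.Agent.S40x.Geo.TopSkeleton
import Fermat.Agent.S40x.Geo.Main

/-!
# P-S44, GEO' (helper95): glue `LeafC3 + LeafDIAG + LeafC2 → LeafInK → S44`

`Geo/TopSkeleton.lean` reduces the frozen statement S44 to the closed statement `LeafInK`
(`π^* V ≤ KmTors` at the good level).  `Geo/Main.geo_goodLevel` (helper22) derives the contradiction
at the good level from three consumer hypotheses `hC3`, `hG3`, `hG4` in the vocabulary of
`Geo/Vocab.lean`.  This file states these three hypotheses as CLOSED `Prop`s, one per block, with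
ALL the hypotheses available in the assembly (so that a block theorem using fewer of them implies
its leaf by `fun _ _ ... => blockTheorem ...`), and proves

  `leafInK_of_blocks : LeafC3 ns → LeafDIAG ns → LeafC2 → LeafInK`,
  `s44_of_blocks     : LeafC3 ns → LeafDIAG ns → LeafC2 → <frozen statement S44>`.

The sets of node places are a parameter `ns : NodeSets` (they are to be defined once by block R1).

Context common to the three leaves (`Ctx`-binders): `p ≥ 5` prime, `p ∤ M'`, `S ∋ p, 2` containing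
the primes of `M' p`, `θ : 𝕋(M' p) → 𝔽_p` with `hNE` (non-Eisenstein) and `hnew` (not `p`-old),
`B` a place of `ℚ̄` over `p`, `(V, L)` of the local shape `GeoShape` in `J₀(M' p)[p]`, `V` consisting
of `θ`-eigenvectors (`EigenAt`); good level `M₀ = lcm M' 4`, `V̂ = π^* V`, `L̂ = π^* L`.
-/

set_option autoImplicit false
set_option linter.unusedSectionVars false
set_option linter.unusedVariables false
set_option linter.style.haveILetI false

noncomputable section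

namespace Fermat.Agent.S40x.Geo.Glue

open CuspForm ModularCurve AlgebraicCurve
open Fermat.Agent.Gateway.S31Red Fermat.Agent.S33x.KummerPn
open Fermat.Agent.S40x.Level.G0 Fermat.Agent.S40x.Geo.Vocab Fermat.Agent.S40x.Geo.TopSkeleton
open Fermat.Agent.S33x.Consumer.LevelTransport

local notation "Qb" => AlgebraicClosure ℚ

/-- the two sets of node places (supersingular places of `κ_∞` and of `κ_0`), for every good
level `M₀ p` and every place `B` of `ℚ̄` over `p` (all the context is available to the definition). -/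
structure NodeSets where
  /-- the node places of `κ_∞` -/
  inf : ∀ (M₀ p : ℕ) [NeZero M₀] [NeZero p] (hp : p.Prime) (hpM : ¬ p ∣ M₀)
    (B : ValuationSubring Qb) (hB : B.LiesOverPrime p), Set (Place (kB B) (FkB B M₀))
  /-- the node places of `κ_0` -/
  zero : ∀ (M₀ p : ℕ) [NeZero M₀] [NeZero p] (hp : p.Prime) (hpM : ¬ p ∣ M₀)
    (B : ValuationSubring Qb) (hB : B.LiesOverPrime p), Set (Place (kB B) (FkB B M₀))

/-- the pull-back `J₀(M' p)[p] → J₀(lcm M' 4 * p)[p]` -/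
abbrev pb (M' p : ℕ) [NeZero M'] [NeZero p] :
    haveI := neZero_lcm_four M'
    JTors (M' * p) (p ^ 1) →+ JTors (Nat.lcm M' 4 * p) (p ^ 1) :=
  haveI := neZero_lcm_four M'
  pullbackTors (Nat.mul_dvd_mul_right (Nat.dvd_lcm_left M' 4) p) (p ^ 1)

/-- **Block C3** (`c3_diagonal` + `c3_flat`): once `L̂ ≤ K_p`, every `x ∈ V̂` has a diagonal slope
vector. -/
def LeafC3 (ns : NodeSets) : Prop :=
  ∀ (p M' : ℕ) [NeZero M'] [NeZero p] [NeZero (M' * p)] (hp : p.Prime) (hp5 : 5 ≤ p)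
    (hp2 : p ≠ 2) (hpM' : ¬ p ∣ M')
    (S : Finset ℕ) (hpS : p ∈ S) (h2S : 2 ∈ S)
    (hNS : ∀ q : ℕ, q.Prime → q ∣ M' * p → q ∈ S)
    (θ : heckeAlgebra (M' * p) 2 (↑S : Set ℕ) →+* ZMod p),
    (∃ (l : ℕ) (hl : l.Prime) (hlN : ¬ l ∣ M' * p) (hlS : l ∉ (↑S : Set ℕ)),
      θ (heckeAlgebra.T hl hlN hlS) ≠ (l : ZMod p) + 1) →
    (∃ h : heckeAlgebra (M' * p) 2 (↑S : Set ℕ), θ h ≠ 0 ∧
      Fermat.Agent.S35x.levelHom (N := M') (q := p) (S := (↑S : Set ℕ))
        (fun q hq hqN => Finset.mem_coe.mpr (hNS q hq hqN)) h = 0) →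
    ∀ (B : ValuationSubring Qb) (hB : B.LiesOverPrime p)
      (V L : AddSubgroup (JTors (M' * p) (p ^ 1))),
      GeoShape p (M' * p) B V L →
      EigenAt (M' * p) (p ^ 1) S (thetaVal θ) V →
      haveI := neZero_lcm_four M'
      L.map (pb M' p) ≤ KmTors (Nat.lcm M' 4) p hp (not_dvd_lcm_four hp hp2 hpM') B hB (p ^ 1) →
      ∀ x ∈ V.map (pb M' p), ∃ c : ZMod p,
        IsDiagonal (hp := hp) (hpM := not_dvd_lcm_four hp hp2 hpM') (hB := hB)
          (ns.inf (Nat.lcm M' 4) p hp (not_dvd_lcm_four hp hp2 hpM') B hB)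
          (ns.zero (Nat.lcm M' 4) p hp (not_dvd_lcm_four hp hp2 hpM') B hB)
          (x : JZero (Nat.lcm M' 4 * p)) c

/-- **Block DIAG** (G3): for `x ∈ V̂` a diagonal slope vector is `0`. -/
def LeafDIAG (ns : NodeSets) : Prop :=
  ∀ (p M' : ℕ) [NeZero M'] [NeZero p] [NeZero (M' * p)] (hp : p.Prime) (hp5 : 5 ≤ p)
    (hp2 : p ≠ 2) (hpM' : ¬ p ∣ M')
    (S : Finset ℕ) (hpS : p ∈ S) (h2S : 2 ∈ S)
    (hNS : ∀ q : ℕ, q.Prime → q ∣ M' * p → q ∈ S)
    (θ : heckeAlgebra (M' * p) 2 (↑S : Set ℕ) →+* ZMod p),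
    (∃ (l : ℕ) (hl : l.Prime) (hlN : ¬ l ∣ M' * p) (hlS : l ∉ (↑S : Set ℕ)),
      θ (heckeAlgebra.T hl hlN hlS) ≠ (l : ZMod p) + 1) →
    (∃ h : heckeAlgebra (M' * p) 2 (↑S : Set ℕ), θ h ≠ 0 ∧
      Fermat.Agent.S35x.levelHom (N := M') (q := p) (S := (↑S : Set ℕ))
        (fun q hq hqN => Finset.mem_coe.mpr (hNS q hq hqN)) h = 0) →
    ∀ (B : ValuationSubring Qb) (hB : B.LiesOverPrime p)
      (V L : AddSubgroup (JTors (M' * p) (p ^ 1))),
      GeoShape p (M' * p) B V L →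
      EigenAt (M' * p) (p ^ 1) S (thetaVal θ) V →
      haveI := neZero_lcm_four M'
      ∀ x ∈ V.map (pb M' p), ∀ c : ZMod p,
        IsDiagonal (hp := hp) (hpM := not_dvd_lcm_four hp hp2 hpM') (hB := hB)
          (ns.inf (Nat.lcm M' 4) p hp (not_dvd_lcm_four hp hp2 hpM') B hB)
          (ns.zero (Nat.lcm M' 4) p hp (not_dvd_lcm_four hp hp2 hpM') B hB)
          (x : JZero (Nat.lcm M' 4 * p)) c → c = 0

/-- **Block C2** (G4, route OMEGA, under `hnew`): a class of `V̂` in `X^f` lies in `K_p`. -/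
def LeafC2 : Prop :=
  ∀ (p M' : ℕ) [NeZero M'] [NeZero p] [NeZero (M' * p)] (hp : p.Prime) (hp5 : 5 ≤ p)
    (hp2 : p ≠ 2) (hpM' : ¬ p ∣ M')
    (S : Finset ℕ) (hpS : p ∈ S) (h2S : 2 ∈ S)
    (hNS : ∀ q : ℕ, q.Prime → q ∣ M' * p → q ∈ S)
    (θ : heckeAlgebra (M' * p) 2 (↑S : Set ℕ) →+* ZMod p),
    (∃ (l : ℕ) (hl : l.Prime) (hlN : ¬ l ∣ M' * p) (hlS : l ∉ (↑S : Set ℕ)),
      θ (heckeAlgebra.T hl hlN hlS) ≠ (l : ZMod p) + 1) →
    (∃ h : heckeAlgebra (M' * p) 2 (↑S : Set ℕ), θ h ≠ 0 ∧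
      Fermat.Agent.S35x.levelHom (N := M') (q := p) (S := (↑S : Set ℕ))
        (fun q hq hqN => Finset.mem_coe.mpr (hNS q hq hqN)) h = 0) →
    ∀ (B : ValuationSubring Qb) (hB : B.LiesOverPrime p)
      (V L : AddSubgroup (JTors (M' * p) (p ^ 1))),
      GeoShape p (M' * p) B V L →
      EigenAt (M' * p) (p ^ 1) S (thetaVal θ) V →
      haveI := neZero_lcm_four M'
      ∀ x ∈ V.map (pb M' p),
        x ∈ XfTors (Nat.lcm M' 4) p hp (not_dvd_lcm_four hp hp2 hpM') B hB →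
        x ∈ KmTors (Nat.lcm M' 4) p hp (not_dvd_lcm_four hp hp2 hpM') B hB (p ^ 1)

/-- **`LeafInK` from the three blocks** (G1 is free: `LineInK.le_KmTors_of_cyclo`). -/
theorem leafInK_of_blocks (ns : NodeSets) (h3 : LeafC3 ns) (hD : LeafDIAG ns) (h2 : LeafC2) :
    LeafInK := by
  intro p M' _ _ _ hp hp5 hp2 hpM' S hpS h2S hNS θ hNE hnew B hB V L hshape heig
  haveI := neZero_lcm_four M'
  have hsh := hshape.map (M := Nat.lcm M' 4 * p) (goodLevel_eq (M' := M') hp hp2)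
  -- G1: `L̂ ≤ K_p`
  have hLK : L.map (pb M' p) ≤
      KmTors (Nat.lcm M' 4) p hp (not_dvd_lcm_four hp hp2 hpM') B hB (p ^ 1) :=
    Fermat.Agent.S40x.Geo.LineInK.le_KmTors_of_cyclo hp2 _
      (fun s _ => Fermat.Agent.S40x.Geo.Main.nsmul_eq_zero s) hsh.hc
  intro x hx
  obtain ⟨c, hdiag⟩ := h3 p M' hp hp5 hp2 hpM' S hpS h2S hNS θ hNE hnew B hB V L hshape heig hLK x hx
  have hc0 : c = 0 :=
    hD p M' hp hp5 hp2 hpM' S hpS h2S hNS θ hNE hnew B hB V L hshape heig x hx c hdiag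
  subst hc0
  exact h2 p M' hp hp5 hp2 hpM' S hpS h2S hNS θ hNE hnew B hB V L hshape heig x hx
    (mem_XfTors_iff.mpr (mem_XfQb_of_isDiagonal_zero (zsmul_coe_eq_zero x) hdiag))

/-- **The frozen statement S44 from the three blocks.** -/
theorem s44_of_blocks (ns : NodeSets) (h3 : LeafC3 ns) (hD : LeafDIAG ns) (h2 : LeafC2)
    (P : FreyPackage) {N : ℕ} (hcond : P.IsConductorLevel N) (hpN : P.p ∣ N)
    (hirr : WeierstrassCurve.Affine.Point.GaloisRepIsIrreducible (K := AlgebraicClosure ℚ) ℚ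
      P.freyCurve P.p)
    (hmod : P.ModularRepOfLevel N) :
    ∃ M : ℕ, M ∣ N ∧ ¬ P.p ∣ M ∧ P.ModularRepOfLevel M :=
  s44_of_leafInK (leafInK_of_blocks ns h3 hD h2) P hcond hpN hirr hmod

end Fermat.Agent.S40x.Geo.Glue
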