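import Fermat.Agent.S40x.Geo.Glue
import Fermat.Agent.S40x.Geo.FinalV2

/-!
# P-S44, GEO' (helper95): the two landed shapes of the block targets are interchangeable

Two glue files reduce `S44SkeletonV2.LeafGEO'` (hence the frozen statement S44) to three closed
block propositions:

* `Geo/Glue.lean` (helper95): `LeafC3 ns`, `LeafDIAG ns`, `LeafC2`; node sets `ns : Glue.NodeSets`
  taking the FULL context (`hp hpM B hB`), `V̂ = V.map π^*` written out;
* `Geo/FinalV2.lean` (helper21): `BlockC3' nodeInf nodeZero`, `BlockDIAG' ..`, `BlockC2'` over the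
  context structure `Ctx2`; node sets `nodeInf nodeZero : Final.NodeFamily` taking `(M₀ p B)` only.

Here: `famInf ns`, `famZero ns : Final.NodeFamily` (the context is put inside the set-builder) and

  `Glue.LeafX ns ↔ FinalV2.BlockX' (famInf ns) (famZero ns)`   (`X = C3, DIAG, C2`),

so a block may prove either literal; blocks C3 and DIAG only have to use the same `ns`.
-/

set_option autoImplicit false
set_option linter.unusedSectionVars false
set_option linter.unusedVariables false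
set_option linter.style.haveILetI false

noncomputable section

namespace Fermat.Agent.S40x.Geo.GlueAdapter

open CuspForm ModularCurve AlgebraicCurve
open Fermat.Agent.Gateway.S31Red Fermat.Agent.S33x.KummerPn
open Fermat.Agent.S33x.Consumer.LevelTransport
open Fermat.Agent.S40x.Level.G0 Fermat.Agent.S40x.Geo.Vocab
open Fermat.Agent.S40x.Geo.Glue Fermat.Agent.S40x.Geo.Final Fermat.Agent.S40x.Geo.FinalV2

local notation "Qb" => AlgebraicClosure ℚ

/-- the node places of `κ_∞` as a `NodeFamily` (context inside the set-builder) -/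
def famInf (ns : NodeSets) : NodeFamily := fun M₀ p B =>
  {P | ∃ (_ : NeZero M₀) (_ : NeZero p) (hp : p.Prime) (hpM : ¬ p ∣ M₀) (hB : B.LiesOverPrime p),
    P ∈ ns.inf M₀ p hp hpM B hB}

/-- the node places of `κ_0` as a `NodeFamily` -/
def famZero (ns : NodeSets) : NodeFamily := fun M₀ p B =>
  {P | ∃ (_ : NeZero M₀) (_ : NeZero p) (hp : p.Prime) (hpM : ¬ p ∣ M₀) (hB : B.LiesOverPrime p),
    P ∈ ns.zero M₀ p hp hpM B hB}

section

variable {ns : NodeSets} {M₀ p : ℕ} [NeZero M₀] [NeZero p] {hp : p.Prime} {hpM : ¬ p ∣ M₀}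
  {B : ValuationSubring Qb} {hB : B.LiesOverPrime p}

theorem famInf_eq : famInf ns M₀ p B = ns.inf M₀ p hp hpM B hB := by
  ext P
  exact ⟨fun ⟨_, _, _, _, _, h⟩ => h, fun h => ⟨inferInstance, inferInstance, hp, hpM, hB, h⟩⟩

theorem famZero_eq : famZero ns M₀ p B = ns.zero M₀ p hp hpM B hB := by
  ext P
  exact ⟨fun ⟨_, _, _, _, _, h⟩ => h, fun h => ⟨inferInstance, inferInstance, hp, hpM, hB, h⟩⟩

end

/-- the `Ctx2` of the assembly, from the context of the `Glue` leaves -/
theorem ctx2_of_glue {p M' : ℕ} [NeZero M'] [NeZero p] [NeZero (M' * p)] (hp : p.Prime)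
    (hp5 : 5 ≤ p) (hp2 : p ≠ 2) (hpM' : ¬ p ∣ M')
    (S : Finset ℕ) (hpS : p ∈ S) (h2S : 2 ∈ S)
    (hNS : ∀ q : ℕ, q.Prime → q ∣ M' * p → q ∈ S)
    (θ : heckeAlgebra (M' * p) 2 (↑S : Set ℕ) →+* ZMod p)
    (hNE : ∃ (l : ℕ) (hl : l.Prime) (hlN : ¬ l ∣ M' * p) (hlS : l ∉ (↑S : Set ℕ)),
      θ (heckeAlgebra.T hl hlN hlS) ≠ (l : ZMod p) + 1)
    (hnew : ∃ h : heckeAlgebra (M' * p) 2 (↑S : Set ℕ), θ h ≠ 0 ∧
      Fermat.Agent.S35x.levelHom (N := M') (q := p) (S := (↑S : Set ℕ))
        (fun q hq hqN => Finset.mem_coe.mpr (hNS q hq hqN)) h = 0)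
    (B : ValuationSubring Qb) (hB : B.LiesOverPrime p)
    (V L : AddSubgroup (JTors (M' * p) (p ^ 1)))
    (hshape : GeoShape p (M' * p) B V L)
    (heig : EigenAt (M' * p) (p ^ 1) S (thetaVal θ) V) :
    haveI := neZero_lcm_four M'
    Ctx2 p M' (Nat.lcm M' 4) S θ B (V.map (pb M' p)) (L.map (pb M' p)) := by
  haveI := neZero_lcm_four M'
  have hM := goodLevel_eq (M' := M') hp hp2
  exact
    { level := rfl
      prime := hp
      five_le := hp5
      not_dvd := hpM'
      not_dvd_good := not_dvd_lcm_four hp hp2 hpM'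
      four_dvd := four_dvd_lcm M'
      mem_p := hpS
      mem_two := h2S
      mem_of_dvd := hNS
      not_dvd_of_notMem := fun ℓ hℓ hℓS => not_dvd_goodLevel h2S hNS hℓ hℓS
      nonEis := hNE
      new := hnew
      liesOver := hB
      shape := hshape.map hM
      eigen := heig.map _
      descends := ⟨Nat.mul_dvd_mul_right (Nat.dvd_lcm_left M' 4) p, V, L, rfl, rfl,
        Fermat.Agent.S40x.Level.BaseChangeTors.pullbackTors_injective' _ hM (p ^ 1), hshape,
        heig⟩ }

/-! ### `FinalV2.BlockX'` implies `Glue.LeafX` -/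

theorem leafC3_of_blockC3' (ns : NodeSets) (h : BlockC3' (famInf ns) (famZero ns)) :
    LeafC3 ns := by
  intro p M' _ _ _ hp hp5 hp2 hpM' S hpS h2S hNS θ hNE hnew B hB V L hshape heig
  haveI := neZero_lcm_four M'
  intro hLK x hx
  have hctx := ctx2_of_glue hp hp5 hp2 hpM' S hpS h2S hNS θ hNE hnew B hB V L hshape heig
  have := h p M' (Nat.lcm M' 4) hp (not_dvd_lcm_four hp hp2 hpM') S θ B hB _ _ hctx hLK x hx
  rwa [famInf_eq (hp := hp) (hpM := not_dvd_lcm_four hp hp2 hpM') (hB := hB),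
    famZero_eq (hp := hp) (hpM := not_dvd_lcm_four hp hp2 hpM') (hB := hB)] at this

theorem leafDIAG_of_blockDIAG' (ns : NodeSets) (h : BlockDIAG' (famInf ns) (famZero ns)) :
    LeafDIAG ns := by
  intro p M' _ _ _ hp hp5 hp2 hpM' S hpS h2S hNS θ hNE hnew B hB V L hshape heig
  haveI := neZero_lcm_four M'
  intro x hx c hdiag
  have hctx := ctx2_of_glue hp hp5 hp2 hpM' S hpS h2S hNS θ hNE hnew B hB V L hshape heig
  refine h p M' (Nat.lcm M' 4) hp (not_dvd_lcm_four hp hp2 hpM') S θ B hB _ _ hctx x hx c ?_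
  rwa [famInf_eq (hp := hp) (hpM := not_dvd_lcm_four hp hp2 hpM') (hB := hB),
    famZero_eq (hp := hp) (hpM := not_dvd_lcm_four hp hp2 hpM') (hB := hB)]

theorem leafC2_of_blockC2' (h : BlockC2') : LeafC2 := by
  intro p M' _ _ _ hp hp5 hp2 hpM' S hpS h2S hNS θ hNE hnew B hB V L hshape heig
  haveI := neZero_lcm_four M'
  intro x hx hxf
  have hctx := ctx2_of_glue hp hp5 hp2 hpM' S hpS h2S hNS θ hNE hnew B hB V L hshape heig
  exact h p M' (Nat.lcm M' 4) hp (not_dvd_lcm_four hp hp2 hpM') S θ B hB _ _ hctx x hx hxf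

/-! ### `Glue.LeafX` implies `FinalV2.BlockX'` -/

theorem blockC3'_of_leafC3 (ns : NodeSets) (h : LeafC3 ns) :
    BlockC3' (famInf ns) (famZero ns) := by
  intro p M' M₀ _ _ _ hp hpM S θ B hB V L hctx hLK x hx
  obtain ⟨hdvd, V₀, L₀, rfl, rfl, -, hshape0, heig0⟩ := hctx.descends
  have hlevel := hctx.level
  subst hlevel
  have hp2 : p ≠ 2 := by have := hctx.five_le; omega
  have := h p M' hp hctx.five_le hp2 hctx.not_dvd S hctx.mem_p hctx.mem_two hctx.mem_of_dvd θ
    hctx.nonEis hctx.new B hB V₀ L₀ hshape0 heig0 hLK x hx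
  rwa [famInf_eq (hp := hp) (hpM := hpM) (hB := hB),
    famZero_eq (hp := hp) (hpM := hpM) (hB := hB)]

theorem blockDIAG'_of_leafDIAG (ns : NodeSets) (h : LeafDIAG ns) :
    BlockDIAG' (famInf ns) (famZero ns) := by
  intro p M' M₀ _ _ _ hp hpM S θ B hB V L hctx x hx c hdiag
  obtain ⟨hdvd, V₀, L₀, rfl, rfl, -, hshape0, heig0⟩ := hctx.descends
  have hlevel := hctx.level
  subst hlevel
  have hp2 : p ≠ 2 := by have := hctx.five_le; omega
  rw [famInf_eq (hp := hp) (hpM := hpM) (hB := hB),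
    famZero_eq (hp := hp) (hpM := hpM) (hB := hB)] at hdiag
  exact h p M' hp hctx.five_le hp2 hctx.not_dvd S hctx.mem_p hctx.mem_two hctx.mem_of_dvd θ
    hctx.nonEis hctx.new B hB V₀ L₀ hshape0 heig0 x hx c hdiag

theorem blockC2'_of_leafC2 (h : LeafC2) : BlockC2' := by
  intro p M' M₀ _ _ _ hp hpM S θ B hB V L hctx x hx hxf
  obtain ⟨hdvd, V₀, L₀, rfl, rfl, -, hshape0, heig0⟩ := hctx.descends
  have hlevel := hctx.level
  subst hlevel
  have hp2 : p ≠ 2 := by have := hctx.five_le; omega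
  exact h p M' hp hctx.five_le hp2 hctx.not_dvd S hctx.mem_p hctx.mem_two hctx.mem_of_dvd θ
    hctx.nonEis hctx.new B hB V₀ L₀ hshape0 heig0 x hx hxf

/-- **The frozen statement S44 from block theorems in mixed shapes**: any of the six combinations
follows from these conversions and `Glue.s44_of_blocks`; e.g. C3 in the `Glue` shape, DIAG and C2
in the `FinalV2` shape. -/
theorem s44_of_mixed (ns : NodeSets) (h3 : LeafC3 ns) (hD : BlockDIAG' (famInf ns) (famZero ns))
    (h2 : BlockC2')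
    (P : FreyPackage) {N : ℕ} (hcond : P.IsConductorLevel N) (hpN : P.p ∣ N)
    (hirr : WeierstrassCurve.Affine.Point.GaloisRepIsIrreducible (K := AlgebraicClosure ℚ) ℚ
      P.freyCurve P.p)
    (hmod : P.ModularRepOfLevel N) :
    ∃ M : ℕ, M ∣ N ∧ ¬ P.p ∣ M ∧ P.ModularRepOfLevel M :=
  s44_of_blocks ns h3 (leafDIAG_of_blockDIAG' ns hD) (leafC2_of_blockC2' h2) P hcond hpN hirr hmod

end Fermat.Agent.S40x.Geo.GlueAdapter
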