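import Fermat.Agent.S40x.Geo.LeavesAdapter

/-!
# P-S44, GEO' (helper95): the weak DIAG literal in the `Glue` shape

`Glue.LeafDIAG ns` asks `IsDiagonal x c → c = 0`, which forces the proof to show that the node sets
are nonempty (lead's literal check).  `LeafDIAGw ns` is the weakest useful form in the `Glue`
context: `IsDiagonal x c → x ∈ XfTors` (true also for empty node sets); it is the `Glue` twin of
helper21's `FinalV3.BlockDIAG3`.

* `leafDIAGw_of_leafDIAG`, `leafDIAGw_of_isDiagonal_zero` (from `IsDiagonal x c → IsDiagonal x 0`);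
* `blockDIAG3_of_leafDIAGw : LeafDIAGw ns → BlockDIAG3 (famInf ns) (famZero ns)` and conversely;
* `leafInK_of_blocks_w`, `s44_of_blocks_w : LeafC3 ns → LeafDIAGw ns → LeafC2 → <frozen S44>`.
-/

set_option autoImplicit false
set_option linter.unusedSectionVars false
set_option linter.unusedVariables false
set_option linter.style.haveILetI false

noncomputable section

namespace Fermat.Agent.S40x.Geo.GlueWeak

open CuspForm ModularCurve AlgebraicCurve
open Fermat.Agent.Gateway.S31Red Fermat.Agent.S33x.KummerPn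
open Fermat.Agent.S33x.Consumer.LevelTransport
open Fermat.Agent.S40x.Level.G0 Fermat.Agent.S40x.Geo.Vocab Fermat.Agent.S40x.Geo.TopSkeleton
open Fermat.Agent.S40x.Geo.Glue Fermat.Agent.S40x.Geo.Final Fermat.Agent.S40x.Geo.FinalV2
open Fermat.Agent.S40x.Geo.FinalV3 Fermat.Agent.S40x.Geo.GlueAdapter

local notation "Qb" => AlgebraicClosure ℚ

/-- **Block DIAG, weak form, `Glue` context**: a class of `V̂` with a diagonal slope vector lies in
`X^f`. -/
def LeafDIAGw (ns : NodeSets) : Prop :=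
  ∀ (p M' : ℕ) [NeZero M'] [NeZero p] [NeZero (M' * p)] (hp : p.Prime) (hp5 : 5 ≤ p)
    (hp2 : p ≠ 2) (hpM' : ¬ p ∣ M')
    (S : Finset ℕ) (hpS : p ∈ S) (h2S : 2 ∈ S)
    (hNS : ∀ q : ℕ, q.Prime → q ∣ M' * p → q ∈ S)
    (θ : heckeAlgebra (M' * p) 2 (↑S : Set ℕ) →+* ZMod p),
    (∃ (l : ℕ) (hl : l.Prime) (hlN : ¬ l ∣ M' * p) (hlS : l ∉ (↑S : Set ℕ)),
      θ (heckeAlgebra.T hl hlN hlS) ≠ (l : ZMod p) + 1) →
    (∃ h : heckeAlgebra (M' * p) 2 (↑S : Set ℕ), θ h ≠ 0 ∧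
      Fermat.Agent.S35x.levelHom (N := M') (q := p) (S := (↑S : Set ℕ))
        (fun q hq hqN => Finset.mem_coe.mpr (hNS q hq hqN)) h = 0) →
    ∀ (B : ValuationSubring Qb) (hB : B.LiesOverPrime p)
      (V L : AddSubgroup (JTors (M' * p) (p ^ 1))),
      GeoShape p (M' * p) B V L →
      EigenAt (M' * p) (p ^ 1) S (thetaVal θ) V →
      haveI := neZero_lcm_four M'
      ∀ x ∈ V.map (pb M' p), ∀ c : ZMod p,
        IsDiagonal (hp := hp) (hpM := not_dvd_lcm_four hp hp2 hpM') (hB := hB)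
          (ns.inf (Nat.lcm M' 4) p hp (not_dvd_lcm_four hp hp2 hpM') B hB)
          (ns.zero (Nat.lcm M' 4) p hp (not_dvd_lcm_four hp hp2 hpM') B hB)
          (x : JZero (Nat.lcm M' 4 * p)) c →
        x ∈ XfTors (Nat.lcm M' 4) p hp (not_dvd_lcm_four hp hp2 hpM') B hB

/-- from `IsDiagonal x c → IsDiagonal x 0` -/
theorem leafDIAGw_of_isDiagonal_zero (ns : NodeSets)
    (h : ∀ (p M' : ℕ) [NeZero M'] [NeZero p] [NeZero (M' * p)] (hp : p.Prime) (hp5 : 5 ≤ p)
      (hp2 : p ≠ 2) (hpM' : ¬ p ∣ M')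
      (S : Finset ℕ) (hpS : p ∈ S) (h2S : 2 ∈ S)
      (hNS : ∀ q : ℕ, q.Prime → q ∣ M' * p → q ∈ S)
      (θ : heckeAlgebra (M' * p) 2 (↑S : Set ℕ) →+* ZMod p),
      (∃ (l : ℕ) (hl : l.Prime) (hlN : ¬ l ∣ M' * p) (hlS : l ∉ (↑S : Set ℕ)),
        θ (heckeAlgebra.T hl hlN hlS) ≠ (l : ZMod p) + 1) →
      (∃ h : heckeAlgebra (M' * p) 2 (↑S : Set ℕ), θ h ≠ 0 ∧
        Fermat.Agent.S35x.levelHom (N := M') (q := p) (S := (↑S : Set ℕ))
          (fun q hq hqN => Finset.mem_coe.mpr (hNS q hq hqN)) h = 0) →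
      ∀ (B : ValuationSubring Qb) (hB : B.LiesOverPrime p)
        (V L : AddSubgroup (JTors (M' * p) (p ^ 1))),
        GeoShape p (M' * p) B V L →
        EigenAt (M' * p) (p ^ 1) S (thetaVal θ) V →
        haveI := neZero_lcm_four M'
        ∀ x ∈ V.map (pb M' p), ∀ c : ZMod p,
          IsDiagonal (hp := hp) (hpM := not_dvd_lcm_four hp hp2 hpM') (hB := hB)
            (ns.inf (Nat.lcm M' 4) p hp (not_dvd_lcm_four hp hp2 hpM') B hB)
            (ns.zero (Nat.lcm M' 4) p hp (not_dvd_lcm_four hp hp2 hpM') B hB)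
            (x : JZero (Nat.lcm M' 4 * p)) c →
          IsDiagonal (hp := hp) (hpM := not_dvd_lcm_four hp hp2 hpM') (hB := hB)
            (ns.inf (Nat.lcm M' 4) p hp (not_dvd_lcm_four hp hp2 hpM') B hB)
            (ns.zero (Nat.lcm M' 4) p hp (not_dvd_lcm_four hp hp2 hpM') B hB)
            (x : JZero (Nat.lcm M' 4 * p)) 0) :
    LeafDIAGw ns := by
  intro p M' _ _ _ hp hp5 hp2 hpM' S hpS h2S hNS θ hNE hnew B hB V L hshape heig
  haveI := neZero_lcm_four M'
  intro x hx c hdiag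
  exact mem_XfTors_iff.mpr (mem_XfQb_of_isDiagonal_zero (zsmul_coe_eq_zero x)
    (h p M' hp hp5 hp2 hpM' S hpS h2S hNS θ hNE hnew B hB V L hshape heig x hx c hdiag))

/-- the `c = 0` literal implies the weak form -/
theorem leafDIAGw_of_leafDIAG (ns : NodeSets) (h : LeafDIAG ns) : LeafDIAGw ns :=
  leafDIAGw_of_isDiagonal_zero ns
    fun p M' _ _ _ hp hp5 hp2 hpM' S hpS h2S hNS θ hNE hnew B hB V L hshape heig x hx c hdiag => by
      have hc0 : c = 0 :=
        h p M' hp hp5 hp2 hpM' S hpS h2S hNS θ hNE hnew B hB V L hshape heig x hx c hdiag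
      subst hc0
      exact hdiag

/-- `Glue` weak form → helper21's `BlockDIAG3` -/
theorem blockDIAG3_of_leafDIAGw (ns : NodeSets) (h : LeafDIAGw ns) :
    BlockDIAG3 (famInf ns) (famZero ns) := by
  intro p M' M₀ _ _ _ hp hpM S θ B hB V L hctx x hx c hdiag
  obtain ⟨hdvd, V₀, L₀, rfl, rfl, -, hshape0, heig0⟩ := hctx.descends
  have hlevel := hctx.level
  subst hlevel
  have hp2 : p ≠ 2 := by have := hctx.five_le; omega
  rw [famInf_eq (hp := hp) (hpM := hpM) (hB := hB),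
    famZero_eq (hp := hp) (hpM := hpM) (hB := hB)] at hdiag
  exact h p M' hp hctx.five_le hp2 hctx.not_dvd S hctx.mem_p hctx.mem_two hctx.mem_of_dvd θ
    hctx.nonEis hctx.new B hB V₀ L₀ hshape0 heig0 x hx c hdiag

/-- helper21's `BlockDIAG3` → `Glue` weak form -/
theorem leafDIAGw_of_blockDIAG3 (ns : NodeSets) (h : BlockDIAG3 (famInf ns) (famZero ns)) :
    LeafDIAGw ns := by
  intro p M' _ _ _ hp hp5 hp2 hpM' S hpS h2S hNS θ hNE hnew B hB V L hshape heig
  haveI := neZero_lcm_four M'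
  intro x hx c hdiag
  have hctx := ctx2_of_glue hp hp5 hp2 hpM' S hpS h2S hNS θ hNE hnew B hB V L hshape heig
  refine h p M' (Nat.lcm M' 4) hp (not_dvd_lcm_four hp hp2 hpM') S θ B hB _ _ hctx x hx c ?_
  rwa [famInf_eq (hp := hp) (hpM := not_dvd_lcm_four hp hp2 hpM') (hB := hB),
    famZero_eq (hp := hp) (hpM := not_dvd_lcm_four hp hp2 hpM') (hB := hB)]

/-- **`LeafInK` from the three blocks, weak DIAG.** -/
theorem leafInK_of_blocks_w (ns : NodeSets) (h3 : LeafC3 ns) (hD : LeafDIAGw ns) (h2 : LeafC2) :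
    LeafInK := by
  intro p M' _ _ _ hp hp5 hp2 hpM' S hpS h2S hNS θ hNE hnew B hB V L hshape heig
  haveI := neZero_lcm_four M'
  have hsh := hshape.map (M := Nat.lcm M' 4 * p) (goodLevel_eq (M' := M') hp hp2)
  have hLK : L.map (pb M' p) ≤
      KmTors (Nat.lcm M' 4) p hp (not_dvd_lcm_four hp hp2 hpM') B hB (p ^ 1) :=
    Fermat.Agent.S40x.Geo.LineInK.le_KmTors_of_cyclo hp2 _
      (fun s _ => Fermat.Agent.S40x.Geo.Main.nsmul_eq_zero s) hsh.hc
  intro x hx
  obtain ⟨c, hdiag⟩ := h3 p M' hp hp5 hp2 hpM' S hpS h2S hNS θ hNE hnew B hB V L hshape heig hLK x hx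
  exact h2 p M' hp hp5 hp2 hpM' S hpS h2S hNS θ hNE hnew B hB V L hshape heig x hx
    (hD p M' hp hp5 hp2 hpM' S hpS h2S hNS θ hNE hnew B hB V L hshape heig x hx c hdiag)

/-- **The frozen statement S44 from the three blocks, weak DIAG.** -/
theorem s44_of_blocks_w (ns : NodeSets) (h3 : LeafC3 ns) (hD : LeafDIAGw ns) (h2 : LeafC2)
    (P : FreyPackage) {N : ℕ} (hcond : P.IsConductorLevel N) (hpN : P.p ∣ N)
    (hirr : WeierstrassCurve.Affine.Point.GaloisRepIsIrreducible (K := AlgebraicClosure ℚ) ℚ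
      P.freyCurve P.p)
    (hmod : P.ModularRepOfLevel N) :
    ∃ M : ℕ, M ∣ N ∧ ¬ P.p ∣ M ∧ P.ModularRepOfLevel M :=
  s44_of_leafInK (leafInK_of_blocks_w ns h3 hD h2) P hcond hpN hirr hmod

end Fermat.Agent.S40x.Geo.GlueWeak
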