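import Fermat.Agent.S40x.Geo.FinalLeaves
import Fermat.Agent.S40x.A.S44SkeletonV2

/-!
# P-S44, GEO: the leaf `S44SkeletonV2.LeafGEO'` from the three geometric blocks (helper22)

`Geo/FinalLeaves.geo_of_leaves` restated on the torsion Hecke data `tData` of block A
(`(tData hp hpS hNS).M 1 = JTors (M' p) (p ^ 1)`, `.gal 1 = galTors`, `.hecke 1 = E.eta (p ^ 1)` for
the export Hecke action `E`, all by `rfl`).  With `S40x/A/S44OfGeo.s44_of_geo` this gives the frozen
statement S44 from `LeafC3 𝒩`, `LeafDIAG 𝒩`, `LeafC2`.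
-/

set_option autoImplicit false
set_option linter.unusedSectionVars false
set_option linter.unusedVariables false
set_option linter.style.haveILetI false

noncomputable section

namespace Fermat.Agent.S40x.Geo.LeafGEO

open ModularCurve AlgebraicCurve CuspForm
open Fermat.Agent.Gateway.S31Red
open Fermat.Agent.S40x.Geo.FinalLeaves Fermat.Agent.S40x.Geo.Nodes Fermat.Agent.S40x.Level.G0
open Fermat.Agent.S40x.A.S44Skeleton2 Fermat.Agent.S40x.A.CopyInTorsion

/-- **`LeafGEO'` from the three blocks.** -/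
theorem leafGEO'_of (𝒩 : NodeSets) (h3 : LeafC3 𝒩) (hD : LeafDIAG 𝒩) (h2 : LeafC2) :
    Fermat.Agent.S40x.A.S44SkeletonV2.LeafGEO' := by
  intro p M' _ _ _ _ hp hp5 hpM' S hpS h2S hNS θ hNE hnew V L hLV hLne hLcard hgal hVθ B hB hb hc hd
  exact geo_of_leaves 𝒩 h3 hD h2 hp hp5 hpM' S hpS h2S hNS
    (Fermat.Agent.Gateway.Export.heckeTorsionAction (M' * p)
      (Fermat.Agent.Gateway.Export.coreInputs (M' * p)
        (Fermat.Agent.Gateway.Export.d5Input (M' * p))) S hNS)
    (instMod := zmodModule (tData hp hpS hNS)) θ hNE hnew B hB V L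
    ⟨hLV, hLne, hLcard, hgal, hb, hc, hd⟩ hVθ

end Fermat.Agent.S40x.Geo.LeafGEO
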