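import Fermat.Agent.S40x.Geo.GlueAdapter
import Fermat.Agent.S40x.Geo.FinalLeaves
import Fermat.Agent.S40x.Geo.FinalV3

/-!
# P-S44, GEO' (helper95): all landed shapes of the three block targets funnel into one sink

Landed shapes of the block targets (each with its own proof of `S44SkeletonV2.LeafGEO'`):

* (T) `Geo/FinalLeaves.lean` (helper22): `LeafC3 𝒩`, `LeafDIAG 𝒩`, `LeafC2`, `𝒩 : Nodes.NodeSets`
  — MINIMAL hypotheses (the strongest statements);
* (G) `Geo/Glue.lean` (helper95): `LeafC3 ns`, `LeafDIAG ns`, `LeafC2`, `ns : Glue.NodeSets` — full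
  context at level `M' p`, `V̂ = π^* V`;
* (B) `Geo/FinalV2.lean`, `Geo/FinalV3.lean` (helper21): `BlockC3'`, `BlockDIAG'`/`BlockDIAG3`,
  `BlockC2'` over the context structure `Ctx2` — the WEAKEST statements.

`Geo/GlueAdapter.lean` gives (G) ↔ (B).  Here: (T) → (G), hence (T) → (B), so that block theorems
proved in DIFFERENT shapes can be combined: everything funnels into helper21's sink
`FinalV3.leafGEO'_of_blocks3 : BlockC3' → BlockDIAG3 → BlockC2' → LeafGEO'`.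
`s44_of_sink` is the frozen statement S44 from the three weakest block statements.
-/

set_option autoImplicit false
set_option linter.unusedSectionVars false
set_option linter.unusedVariables false
set_option linter.style.haveILetI false

noncomputable section

namespace Fermat.Agent.S40x.Geo.LeavesAdapter

open CuspForm ModularCurve AlgebraicCurve
open Fermat.Agent.Gateway.S31Red Fermat.Agent.S33x.KummerPn
open Fermat.Agent.S33x.Consumer.LevelTransport
open Fermat.Agent.S40x.Level.G0 Fermat.Agent.S40x.Geo.Vocab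
open Fermat.Agent.S40x.Geo.Final Fermat.Agent.S40x.Geo.FinalV2 Fermat.Agent.S40x.Geo.FinalV3
open Fermat.Agent.S40x.Geo.GlueAdapter

local notation "Qb" => AlgebraicClosure ℚ

/-- helper22's node sets (pair-valued function) as a `Glue.NodeSets` -/
def nsOf (𝒩 : Fermat.Agent.S40x.Geo.Nodes.NodeSets) : Fermat.Agent.S40x.Geo.Glue.NodeSets where
  inf M₀ p _ _ hp hpM B hB := (𝒩 M₀ p hp hpM B hB).1
  zero M₀ p _ _ hp hpM B hB := (𝒩 M₀ p hp hpM B hB).2

/-! ### (T) → (G) -/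

theorem glueC3_of_leafC3 (𝒩 : Fermat.Agent.S40x.Geo.Nodes.NodeSets)
    (h : Fermat.Agent.S40x.Geo.FinalLeaves.LeafC3 𝒩) :
    Fermat.Agent.S40x.Geo.Glue.LeafC3 (nsOf 𝒩) := by
  intro p M' _ _ _ hp hp5 hp2 hpM' S hpS h2S hNS θ hNE hnew B hB V L hshape heig
  haveI := neZero_lcm_four M'
  intro hLK x hx
  exact h (Nat.lcm M' 4) p hp (not_dvd_lcm_four hp hp2 hpM') B hB hp5 (four_dvd_lcm M') _ _
    (hshape.map (goodLevel_eq (M' := M') hp hp2)) hLK x hx

theorem glueDIAG_of_leafDIAG (𝒩 : Fermat.Agent.S40x.Geo.Nodes.NodeSets)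
    (h : Fermat.Agent.S40x.Geo.FinalLeaves.LeafDIAG 𝒩) :
    Fermat.Agent.S40x.Geo.Glue.LeafDIAG (nsOf 𝒩) := by
  intro p M' _ _ _ hp hp5 hp2 hpM' S hpS h2S hNS θ hNE hnew B hB V L hshape heig
  haveI := neZero_lcm_four M'
  intro x hx c hdiag
  have hS' : ∀ q : ℕ, q.Prime → q ∣ Nat.lcm M' 4 * p → q ∈ S := by
    intro q hq hqd
    by_contra hqS
    exact not_dvd_goodLevel h2S hNS hq hqS hqd
  have hNE' : ∃ l : ℕ, l.Prime ∧ l ∉ S ∧ ((thetaVal θ l : ℕ) : ZMod p) ≠ (l : ZMod p) + 1 := by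
    obtain ⟨l, hl, hlN, hlS, hne⟩ := hNE
    refine ⟨l, hl, fun h => hlS (Finset.mem_coe.mpr h), ?_⟩
    rw [thetaVal_cast θ hl hlN hlS]
    exact hne
  exact h (Nat.lcm M' 4) p hp (not_dvd_lcm_four hp hp2 hpM') B hB hp5 (four_dvd_lcm M') S
    (thetaVal θ) hS' hNE' _ _ (hshape.map (goodLevel_eq (M' := M') hp hp2)) (heig.map _) x hx c
    hdiag

theorem glueC2_of_leafC2 (h : Fermat.Agent.S40x.Geo.FinalLeaves.LeafC2) :
    Fermat.Agent.S40x.Geo.Glue.LeafC2 := by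
  intro p M' _ _ _ hp hp5 hp2 hpM' S hpS h2S hNS θ hNE hnew B hB V L hshape heig
  haveI := neZero_lcm_four M'
  rintro y ⟨x, hx, rfl⟩ hy
  exact h p M' hp hp5 hpM' S hpS h2S hNS θ hnew B hB V heig (not_dvd_lcm_four hp hp2 hpM') x hx hy

/-! ### (T) → (B) -/

theorem blockC3'_of_leafC3 (𝒩 : Fermat.Agent.S40x.Geo.Nodes.NodeSets)
    (h : Fermat.Agent.S40x.Geo.FinalLeaves.LeafC3 𝒩) :
    BlockC3' (famInf (nsOf 𝒩)) (famZero (nsOf 𝒩)) :=
  Fermat.Agent.S40x.Geo.GlueAdapter.blockC3'_of_leafC3 _ (glueC3_of_leafC3 𝒩 h)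

theorem blockDIAG'_of_leafDIAG (𝒩 : Fermat.Agent.S40x.Geo.Nodes.NodeSets)
    (h : Fermat.Agent.S40x.Geo.FinalLeaves.LeafDIAG 𝒩) :
    BlockDIAG' (famInf (nsOf 𝒩)) (famZero (nsOf 𝒩)) :=
  Fermat.Agent.S40x.Geo.GlueAdapter.blockDIAG'_of_leafDIAG _ (glueDIAG_of_leafDIAG 𝒩 h)

theorem blockC2'_of_leafC2 (h : Fermat.Agent.S40x.Geo.FinalLeaves.LeafC2) : BlockC2' :=
  Fermat.Agent.S40x.Geo.GlueAdapter.blockC2'_of_leafC2 (glueC2_of_leafC2 h)

/-! ### The sink -/

/-- **The frozen statement S44 from the three weakest block statements** (helper21's sink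
`FinalV3.leafGEO'_of_blocks3` + `S44OfGeo.s44_of_geo`). -/
theorem s44_of_sink {nodeInf nodeZero : NodeFamily} (h3 : BlockC3' nodeInf nodeZero)
    (hD : BlockDIAG3 nodeInf nodeZero) (h2 : BlockC2')
    (P : FreyPackage) {N : ℕ} (hcond : P.IsConductorLevel N) (hpN : P.p ∣ N)
    (hirr : WeierstrassCurve.Affine.Point.GaloisRepIsIrreducible (K := AlgebraicClosure ℚ) ℚ
      P.freyCurve P.p)
    (hmod : P.ModularRepOfLevel N) :
    ∃ M : ℕ, M ∣ N ∧ ¬ P.p ∣ M ∧ P.ModularRepOfLevel M :=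
  Fermat.Agent.S40x.A.S44OfGeo.s44_of_geo (leafGEO'_of_blocks3 h3 hD h2) P hcond hpN hirr hmod

end Fermat.Agent.S40x.Geo.LeavesAdapter
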