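import Fermat.Agent.S40x.Geo.Glue
import Fermat.Agent.S40x.Node.NodePlaces

/-!
# P-S44, GEO' (helper95): the concrete node sets `nsR1 : Glue.NodeSets`

helper47's canonical node places `Node/NodePlaces.nodeInf / nodeZero M₀ p hp hpM B hB h4`
(`h4 : 4 ∣ M₀`) packaged as ONE term `nsR1 : Geo.Glue.NodeSets` (total in `M₀`: the condition
`4 ∣ M₀` is put inside the set-builder).  Blocks C3 and DIAG state their final theorems with
THIS term: `Glue.LeafC3 nsR1`, `Glue.LeafDIAG nsR1` / `GlueWeak.LeafDIAGw nsR1` (or the `FinalV2`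
shapes at `famInf nsR1`, `famZero nsR1`).

* `nsR1_inf_eq`, `nsR1_zero_eq` : at a level with `4 ∣ M₀` the fields are `nodeInf`, `nodeZero`;
* `nsR1_inf_lcm`, `nsR1_zero_lcm` : the same at the good level `M₀ = lcm M' 4` of the assembly;
* `isDiagonal_nsR1_iff` : `IsDiagonal` for `nsR1` is `IsDiagonal` for `nodeInf`, `nodeZero`.
-/

set_option autoImplicit false
set_option linter.unusedSectionVars false
set_option linter.unusedVariables false

noncomputable section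

namespace Fermat.Agent.S40x.Geo.NodeSetsR1

open ModularCurve AlgebraicCurve
open Fermat.Agent.Gateway.S31Red
open Fermat.Agent.S40x.Geo.Vocab Fermat.Agent.S40x.Geo.Glue
open Fermat.Agent.S40x.Node.NodePlaces

local notation "Qb" => AlgebraicClosure ℚ

/-- **the node sets of block R1** as a `Glue.NodeSets`. -/
def nsR1 : NodeSets where
  inf M₀ p _ _ hp hpM B hB := {P | ∃ h4 : 4 ∣ M₀, P ∈ nodeInf M₀ p hp hpM B hB h4}
  zero M₀ p _ _ hp hpM B hB := {P | ∃ h4 : 4 ∣ M₀, P ∈ nodeZero M₀ p hp hpM B hB h4}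

variable {M₀ p : ℕ} [NeZero M₀] [NeZero p] {hp : p.Prime} {hpM : ¬ p ∣ M₀}
  {B : ValuationSubring Qb} {hB : B.LiesOverPrime p}

theorem nsR1_inf_eq (h4 : 4 ∣ M₀) :
    nsR1.inf M₀ p hp hpM B hB = nodeInf M₀ p hp hpM B hB h4 := by
  ext P
  exact ⟨fun ⟨_, h⟩ => h, fun h => ⟨h4, h⟩⟩

theorem nsR1_zero_eq (h4 : 4 ∣ M₀) :
    nsR1.zero M₀ p hp hpM B hB = nodeZero M₀ p hp hpM B hB h4 := by
  ext P
  exact ⟨fun ⟨_, h⟩ => h, fun h => ⟨h4, h⟩⟩

theorem mem_nsR1_inf_iff (h4 : 4 ∣ M₀) {P : Place (kB B) (FkB B M₀)} :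
    P ∈ nsR1.inf M₀ p hp hpM B hB ↔ P ∈ nodeInf M₀ p hp hpM B hB h4 := by
  rw [nsR1_inf_eq h4]

theorem mem_nsR1_zero_iff (h4 : 4 ∣ M₀) {P : Place (kB B) (FkB B M₀)} :
    P ∈ nsR1.zero M₀ p hp hpM B hB ↔ P ∈ nodeZero M₀ p hp hpM B hB h4 := by
  rw [nsR1_zero_eq h4]

/-- `IsDiagonal` with respect to `nsR1` is `IsDiagonal` with respect to `nodeInf`, `nodeZero`. -/
theorem isDiagonal_nsR1_iff (h4 : 4 ∣ M₀) {x : JZero (M₀ * p)} {c : ZMod p} :
    IsDiagonal (hp := hp) (hpM := hpM) (hB := hB) (nsR1.inf M₀ p hp hpM B hB)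
        (nsR1.zero M₀ p hp hpM B hB) x c ↔
      IsDiagonal (hp := hp) (hpM := hpM) (hB := hB) (nodeInf M₀ p hp hpM B hB h4)
        (nodeZero M₀ p hp hpM B hB h4) x c := by
  rw [nsR1_inf_eq h4, nsR1_zero_eq h4]

/-- finiteness (`p` odd) -/
theorem finite_nsR1_inf (h4 : 4 ∣ M₀) (hp2 : p ≠ 2) : (nsR1.inf M₀ p hp hpM B hB).Finite := by
  rw [nsR1_inf_eq h4]
  exact finite_nodeInf M₀ p hp hpM B hB h4 hp2

theorem finite_nsR1_zero (h4 : 4 ∣ M₀) (hp2 : p ≠ 2) : (nsR1.zero M₀ p hp hpM B hB).Finite := by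
  rw [nsR1_zero_eq h4]
  exact finite_nodeZero M₀ p hp hpM B hB h4 hp2

end Fermat.Agent.S40x.Geo.NodeSetsR1
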