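import Fermat.Agent.S40x.Geo.NodeSetsR1
import Fermat.Agent.S40x.Geo.GlueWeak

/-!
# P-S44, GEO' (helper95): block statements at a GENERAL good level ⟹ the `Glue` literals at `nsR1`

The natural form of the final theorems of blocks C3 and DIAG is a statement at an arbitrary good
level `M₀ p` (`4 ∣ M₀`, `p ∤ M₀`, `p ≥ 5`) with helper47's node places
`NodePlaces.nodeInf / nodeZero M₀ p hp hpM B hB h4`:

* `C3AtGoodLevel`   : local shape + `L ≤ K_p` ⟹ every `x ∈ V` has a diagonal slope vector;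
* `DIAGAtGoodLevel` : `V` of the local shape consisting of `T_ℓ`-eigenvectors (`ℓ ∉ S`) of a
  non-Eisenstein system, `x ∈ V` diagonal ⟹ `x ∈ X^f` (weak form);
* `DIAGAtGoodLevel₀`: the same with conclusion `c = 0`.

Here: these imply `Glue.LeafC3 nsR1`, `GlueWeak.LeafDIAGw nsR1`, `Glue.LeafDIAG nsR1`, and
`s44_of_goodLevel : C3AtGoodLevel → DIAGAtGoodLevel → Glue.LeafC2 → <frozen S44>`.
-/

set_option autoImplicit false
set_option linter.unusedSectionVars false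
set_option linter.unusedVariables false
set_option linter.style.haveILetI false

noncomputable section

namespace Fermat.Agent.S40x.Geo.R1Wrap

open CuspForm ModularCurve AlgebraicCurve
open Fermat.Agent.Gateway.S31Red Fermat.Agent.S33x.KummerPn
open Fermat.Agent.S33x.Consumer.LevelTransport
open Fermat.Agent.S40x.Level.G0 Fermat.Agent.S40x.Geo.Vocab
open Fermat.Agent.S40x.Geo.Glue Fermat.Agent.S40x.Geo.GlueWeak Fermat.Agent.S40x.Geo.NodeSetsR1
open Fermat.Agent.S40x.Node.NodePlaces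

local notation "Qb" => AlgebraicClosure ℚ

/-- **Block C3 at a general good level**, node places of `Node/NodePlaces`. -/
def C3AtGoodLevel : Prop :=
  ∀ (M₀ p : ℕ) [NeZero M₀] [NeZero p] (hp : p.Prime) (hpM : ¬ p ∣ M₀)
    (B : ValuationSubring Qb) (hB : B.LiesOverPrime p), 5 ≤ p → ∀ (h4 : 4 ∣ M₀)
    (V L : AddSubgroup (JTors (M₀ * p) (p ^ 1))), GeoShape p (M₀ * p) B V L →
      L ≤ KmTors M₀ p hp hpM B hB (p ^ 1) →
      ∀ x ∈ V, ∃ c : ZMod p,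
        IsDiagonal (hp := hp) (hpM := hpM) (hB := hB) (nodeInf M₀ p hp hpM B hB h4)
          (nodeZero M₀ p hp hpM B hB h4) (x : JZero (M₀ * p)) c

/-- **Block DIAG at a general good level, weak form** (`→ x ∈ X^f`). -/
def DIAGAtGoodLevel : Prop :=
  ∀ (M₀ p : ℕ) [NeZero M₀] [NeZero p] (hp : p.Prime) (hpM : ¬ p ∣ M₀)
    (B : ValuationSubring Qb) (hB : B.LiesOverPrime p), 5 ≤ p → ∀ (h4 : 4 ∣ M₀)
    (S : Finset ℕ) (a : ℕ → ℕ), (∀ q : ℕ, q.Prime → q ∣ M₀ * p → q ∈ S) →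
      (∃ l : ℕ, l.Prime ∧ l ∉ S ∧ ((a l : ℕ) : ZMod p) ≠ (l : ZMod p) + 1) →
      ∀ (V L : AddSubgroup (JTors (M₀ * p) (p ^ 1))), GeoShape p (M₀ * p) B V L →
        EigenAt (M₀ * p) (p ^ 1) S a V →
        ∀ x ∈ V, ∀ c : ZMod p,
          IsDiagonal (hp := hp) (hpM := hpM) (hB := hB) (nodeInf M₀ p hp hpM B hB h4)
            (nodeZero M₀ p hp hpM B hB h4) (x : JZero (M₀ * p)) c →
          x ∈ XfTors M₀ p hp hpM B hB

/-- **Block DIAG at a general good level, `c = 0` form.** -/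
def DIAGAtGoodLevel₀ : Prop :=
  ∀ (M₀ p : ℕ) [NeZero M₀] [NeZero p] (hp : p.Prime) (hpM : ¬ p ∣ M₀)
    (B : ValuationSubring Qb) (hB : B.LiesOverPrime p), 5 ≤ p → ∀ (h4 : 4 ∣ M₀)
    (S : Finset ℕ) (a : ℕ → ℕ), (∀ q : ℕ, q.Prime → q ∣ M₀ * p → q ∈ S) →
      (∃ l : ℕ, l.Prime ∧ l ∉ S ∧ ((a l : ℕ) : ZMod p) ≠ (l : ZMod p) + 1) →
      ∀ (V L : AddSubgroup (JTors (M₀ * p) (p ^ 1))), GeoShape p (M₀ * p) B V L →
        EigenAt (M₀ * p) (p ^ 1) S a V →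
        ∀ x ∈ V, ∀ c : ZMod p,
          IsDiagonal (hp := hp) (hpM := hpM) (hB := hB) (nodeInf M₀ p hp hpM B hB h4)
            (nodeZero M₀ p hp hpM B hB h4) (x : JZero (M₀ * p)) c → c = 0

theorem leafC3_of_goodLevel (h : C3AtGoodLevel) : LeafC3 nsR1 := by
  intro p M' _ _ _ hp hp5 hp2 hpM' S hpS h2S hNS θ hNE hnew B hB V L hshape heig
  haveI := neZero_lcm_four M'
  intro hLK x hx
  obtain ⟨c, hc⟩ := h (Nat.lcm M' 4) p hp (not_dvd_lcm_four hp hp2 hpM') B hB hp5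
    (four_dvd_lcm M') _ _ (hshape.map (goodLevel_eq (M' := M') hp hp2)) hLK x hx
  exact ⟨c, (isDiagonal_nsR1_iff (four_dvd_lcm M')).mpr hc⟩

/-- the arithmetic side conditions of the DIAG statements at the good level of the assembly -/
theorem diag_side {p M' : ℕ} [NeZero M'] [NeZero p] (hp : p.Prime)
    (S : Finset ℕ) (h2S : 2 ∈ S) (hNS : ∀ q : ℕ, q.Prime → q ∣ M' * p → q ∈ S)
    (θ : heckeAlgebra (M' * p) 2 (↑S : Set ℕ) →+* ZMod p)
    (hNE : ∃ (l : ℕ) (hl : l.Prime) (hlN : ¬ l ∣ M' * p) (hlS : l ∉ (↑S : Set ℕ)),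
      θ (heckeAlgebra.T hl hlN hlS) ≠ (l : ZMod p) + 1) :
    (∀ q : ℕ, q.Prime → q ∣ Nat.lcm M' 4 * p → q ∈ S) ∧
      ∃ l : ℕ, l.Prime ∧ l ∉ S ∧ ((thetaVal θ l : ℕ) : ZMod p) ≠ (l : ZMod p) + 1 := by
  constructor
  · intro q hq hqd
    by_contra hqS
    exact not_dvd_goodLevel h2S hNS hq hqS hqd
  · obtain ⟨l, hl, hlN, hlS, hne⟩ := hNE
    refine ⟨l, hl, fun h => hlS (Finset.mem_coe.mpr h), ?_⟩
    rw [thetaVal_cast θ hl hlN hlS]
    exact hne

theorem leafDIAGw_of_goodLevel (h : DIAGAtGoodLevel) : LeafDIAGw nsR1 := by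
  intro p M' _ _ _ hp hp5 hp2 hpM' S hpS h2S hNS θ hNE hnew B hB V L hshape heig
  haveI := neZero_lcm_four M'
  intro x hx c hdiag
  obtain ⟨hS', hNE'⟩ := diag_side hp S h2S hNS θ hNE
  exact h (Nat.lcm M' 4) p hp (not_dvd_lcm_four hp hp2 hpM') B hB hp5 (four_dvd_lcm M') S
    (thetaVal θ) hS' hNE' _ _ (hshape.map (goodLevel_eq (M' := M') hp hp2)) (heig.map _) x hx c
    ((isDiagonal_nsR1_iff (four_dvd_lcm M')).mp hdiag)

theorem leafDIAG_of_goodLevel₀ (h : DIAGAtGoodLevel₀) : LeafDIAG nsR1 := by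
  intro p M' _ _ _ hp hp5 hp2 hpM' S hpS h2S hNS θ hNE hnew B hB V L hshape heig
  haveI := neZero_lcm_four M'
  intro x hx c hdiag
  obtain ⟨hS', hNE'⟩ := diag_side hp S h2S hNS θ hNE
  exact h (Nat.lcm M' 4) p hp (not_dvd_lcm_four hp hp2 hpM') B hB hp5 (four_dvd_lcm M') S
    (thetaVal θ) hS' hNE' _ _ (hshape.map (goodLevel_eq (M' := M') hp hp2)) (heig.map _) x hx c
    ((isDiagonal_nsR1_iff (four_dvd_lcm M')).mp hdiag)

/-- **The frozen statement S44** from C3 and DIAG at a general good level and C2 in the `Glue`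
shape. -/
theorem s44_of_goodLevel (h3 : C3AtGoodLevel) (hD : DIAGAtGoodLevel) (h2 : LeafC2)
    (P : FreyPackage) {N : ℕ} (hcond : P.IsConductorLevel N) (hpN : P.p ∣ N)
    (hirr : WeierstrassCurve.Affine.Point.GaloisRepIsIrreducible (K := AlgebraicClosure ℚ) ℚ
      P.freyCurve P.p)
    (hmod : P.ModularRepOfLevel N) :
    ∃ M : ℕ, M ∣ N ∧ ¬ P.p ∣ M ∧ P.ModularRepOfLevel M :=
  s44_of_blocks_w nsR1 (leafC3_of_goodLevel h3) (leafDIAGw_of_goodLevel hD) h2 P hcond hpN hirr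
    hmod

end Fermat.Agent.S40x.Geo.R1Wrap
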