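import Fermat.Agent.S40x.Level.G0
import Fermat.Agent.S40x.Geo.NoTrivKm
import Fermat.Agent.S40x.Geo.LineInK

/-!
# P-S44, GEO' (helper60): consequences of the local shape `GeoShape` at the good level

`GeoShape p N B V L` (`Level/G0`) = the local shape of the literal `s44_geo'` for `L ≤ V ≤ J₀(N)[p]`.

At ANY level `N`:
* `torsPowOne N p : JTors N (p ^ 1) ≃+ JTors N p` (the two types are not definitionally equal) with
  `coe_torsPowOne`, `torsPowOne_galTors`;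
* `exists_generator` (2a) : `L` is cyclic of order `p`: a generator `l₀ ≠ 0` with `s = j • l₀`;
* `exists_cyclo_exp` : every `τ` acts on `μ_p` by `ζ ↦ ζ ^ a`;
* `shape_h1` (2b) : `∀ τ ∈ I, ∃ a, τ l₀ = a • l₀ ∧ τ ζ = ζ ^ a`;
* `shape_h2` (3) : `∀ x ∈ V, ∀ τ ∈ I, ∃ j, τ x - x = j • l₀`;
* `shape_for_descent` : (2a)+(2b)+(3) in the vocabulary `JTors N p` of
  `R2/KFB/DescentOfShape.descent_of_shape` (with `H := B.inertiaSubgroupIn ℚ`).

At a good level `N = M₀ p` (`p` odd, `p ∤ M₀`, `4 ∣ M₀`):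
* `le_KmTors` (1) : `L ≤ KmTors` (`Geo/LineInK.le_KmTors_of_cyclo`);
* `generator_mem_KmTors`;
* `not_le_KmTors` (4) : `V ≤ KmTors → False`; `exists_not_mem_KmTors`.
-/

set_option autoImplicit false
set_option linter.unusedSectionVars false
set_option linter.style.haveILetI false

noncomputable section

open ModularCurve AlgebraicCurve

namespace Fermat.Agent.S40x.Geo.ShapeFacts

open Fermat.Agent.Gateway.S31Red Fermat.Agent.S33x.KummerPn Fermat.Agent.S40x.Level.G0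

local notation "Γℚ" => (AlgebraicClosure ℚ ≃ₐ[ℚ] AlgebraicClosure ℚ)
local notation "Qb" => AlgebraicClosure ℚ

/-! ### `J₀(N)[p ^ 1]` versus `J₀(N)[p]` -/

theorem torsion_pow_one (N p : ℕ) :
    Pic0.torsion Qb (modularFunctionFieldBar N) (p ^ 1) =
      Pic0.torsion Qb (modularFunctionFieldBar N) p := by
  rw [pow_one]

/-- `J₀(N)[p ^ 1] ≃ J₀(N)[p]` (identity on the underlying classes). -/
def torsPowOne (N p : ℕ) : JTors N (p ^ 1) ≃+ JTors N p :=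
  AddEquiv.addSubgroupCongr (torsion_pow_one N p)

theorem coe_torsPowOne (N p : ℕ) (x : JTors N (p ^ 1)) :
    ((torsPowOne N p x : JTors N p) : JZero N) = (x : JZero N) :=
  AddEquiv.addSubgroupCongr_apply (torsion_pow_one N p) x

theorem coe_torsPowOne_symm (N p : ℕ) (x : JTors N p) :
    (((torsPowOne N p).symm x : JTors N (p ^ 1)) : JZero N) = (x : JZero N) :=
  AddEquiv.addSubgroupCongr_symm_apply (torsion_pow_one N p) x

theorem torsPowOne_galTors (N p : ℕ) (σ : Γℚ) (x : JTors N (p ^ 1)) :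
    torsPowOne N p (galTors N (p ^ 1) σ x) = galTors N p σ (torsPowOne N p x) := by
  apply Subtype.ext
  rw [coe_torsPowOne, coe_galTors_apply, coe_galTors_apply, coe_torsPowOne]

/-! ### Facts at any level -/

variable {N p : ℕ} {B : ValuationSubring Qb} {V L : AddSubgroup (JTors N (p ^ 1))}

/-- every element of `J₀(N)[p ^ 1]` is killed by `p`. -/
theorem nsmul_eq_zero (x : JTors N (p ^ 1)) : p • x = 0 := by
  obtain ⟨y, hy⟩ := x
  apply Subtype.ext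
  have h1 : (p : ℤ) • y = 0 := Pic0.mem_torsion.mp (torsion_pow_one N p ▸ hy)
  rw [natCast_zsmul] at h1
  rw [AddSubgroupClass.coe_nsmul]
  exact h1

/-- **(2a)** `L` is cyclic of order `p`: a generator `l₀ ≠ 0`, every element of `L` is a natural
multiple of it. -/
theorem exists_generator (h : GeoShape p N B V L) (hp : p.Prime) :
    ∃ l₀ ∈ L, l₀ ≠ 0 ∧ ∀ s ∈ L, ∃ j : ℕ, s = j • l₀ := by
  haveI : Fact p.Prime := ⟨hp⟩
  haveI : IsAddCyclic L := isAddCyclic_of_prime_card h.card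
  obtain ⟨g, hg⟩ := IsAddCyclic.exists_generator (α := L)
  have hgen : ∀ s ∈ L, ∃ j : ℕ, s = j • (g : JTors N (p ^ 1)) := by
    intro s hs
    obtain ⟨k, hk⟩ := AddSubgroup.mem_zmultiples_iff.mp (hg ⟨s, hs⟩)
    have hk' : k • (g : JTors N (p ^ 1)) = s := by
      have := congrArg (fun y : L => (y : JTors N (p ^ 1))) hk
      simpa using this
    have hppos : (0 : ℤ) < p := by exact_mod_cast hp.pos
    refine ⟨(k % p).toNat, ?_⟩
    have h1 : ((k % p).toNat : ℤ) = k % p := Int.toNat_of_nonneg (Int.emod_nonneg k hppos.ne')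
    have h2 : k = k % p + p * (k / p) := (Int.emod_add_mul_ediv k p).symm
    rw [← hk', ← natCast_zsmul, h1]
    conv_lhs => rw [h2]
    rw [add_zsmul, mul_comm, mul_zsmul, natCast_zsmul, nsmul_eq_zero, smul_zero, add_zero]
  refine ⟨g, g.2, ?_, hgen⟩
  intro h0
  -- then `L` is trivial, contradicting `#L = p`
  have hbot : ∀ s : L, s = 0 := by
    intro s
    obtain ⟨j, hj⟩ := hgen s s.2
    apply Subtype.ext
    rw [hj, h0, smul_zero]
    rfl
  haveI : Subsingleton L := ⟨fun a b => by rw [hbot a, hbot b]⟩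
  have := h.card
  rw [Nat.card_unique] at this
  exact hp.one_lt.ne this

/-- every automorphism acts on `μ_p` through a power map. -/
theorem exists_cyclo_exp (hp : p.Prime) {ζ : Qb} (hζ : IsPrimitiveRoot ζ p) (τ : Γℚ) :
    ∃ a : ℕ, τ ζ = ζ ^ a ∧ ∀ ζ' : Qb, ζ' ^ p = 1 → τ ζ' = ζ' ^ a := by
  haveI : NeZero p := ⟨hp.ne_zero⟩
  have hτζ : (τ ζ) ^ p = 1 := by rw [← map_pow, hζ.pow_eq_one, map_one]
  obtain ⟨a, -, ha⟩ := hζ.eq_pow_of_pow_eq_one hτζ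
  refine ⟨a, ha.symm, fun ζ' hζ' => ?_⟩
  obtain ⟨i, -, rfl⟩ := hζ.eq_pow_of_pow_eq_one hζ'
  rw [map_pow, ← ha, ← pow_mul, ← pow_mul, mul_comm]

/-- **(2b)**, shape (h1) of `descent_of_shape`. -/
theorem shape_h1 (h : GeoShape p N B V L) (hp : p.Prime) {ζ : Qb} (hζ : IsPrimitiveRoot ζ p)
    {l₀ : JTors N (p ^ 1)} (hl₀ : l₀ ∈ L) :
    ∀ τ ∈ B.inertiaSubgroupIn ℚ, ∃ a : ℕ, galTors N (p ^ 1) τ l₀ = a • l₀ ∧ τ ζ = ζ ^ a := by
  intro τ hτ
  obtain ⟨a, ha, ha'⟩ := exists_cyclo_exp hp hζ τ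
  exact ⟨a, h.hc τ hτ a ha' l₀ hl₀, ha⟩

/-- **(3)**, shape (h2) of `descent_of_shape`. -/
theorem shape_h2 (h : GeoShape p N B V L) {l₀ : JTors N (p ^ 1)}
    (hgen : ∀ s ∈ L, ∃ j : ℕ, s = j • l₀) :
    ∀ x ∈ V, ∀ τ ∈ B.inertiaSubgroupIn ℚ, ∃ j : ℕ, galTors N (p ^ 1) τ x - x = j • l₀ :=
  fun x hx τ hτ => hgen _ (h.hb τ hτ x hx)

/-- **(2a)+(2b)+(3) in the vocabulary of `descent_of_shape`** (`JTors N p`, `H := I_B`). -/
theorem shape_for_descent (h : GeoShape p N B V L) (hp : p.Prime) {ζ : Qb}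
    (hζ : IsPrimitiveRoot ζ p) :
    ∃ l₀ ∈ L, l₀ ≠ 0 ∧ torsPowOne N p l₀ ≠ 0 ∧ (∀ s ∈ L, ∃ j : ℕ, s = j • l₀) ∧
      (∀ τ ∈ B.inertiaSubgroupIn ℚ, ∃ a : ℕ,
        galTors N p τ (torsPowOne N p l₀) = a • torsPowOne N p l₀ ∧ τ ζ = ζ ^ a) ∧
      ∀ x ∈ V, ∀ τ ∈ B.inertiaSubgroupIn ℚ, ∃ j : ℕ,
        galTors N p τ (torsPowOne N p x) - torsPowOne N p x = j • torsPowOne N p l₀ := by
  obtain ⟨l₀, hl₀, hne, hgen⟩ := exists_generator h hp
  refine ⟨l₀, hl₀, hne, ?_, hgen, ?_, ?_⟩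
  · intro h0
    exact hne ((torsPowOne N p).injective (by rw [h0, map_zero]))
  · intro τ hτ
    obtain ⟨a, ha, ha'⟩ := shape_h1 h hp hζ hl₀ τ hτ
    refine ⟨a, ?_, ha'⟩
    rw [← torsPowOne_galTors, ha, map_nsmul]
  · intro x hx τ hτ
    obtain ⟨j, hj⟩ := shape_h2 h hgen x hx τ hτ
    refine ⟨j, ?_⟩
    rw [← torsPowOne_galTors, ← map_sub, hj, map_nsmul]

/-! ### Facts at a good level -/

section Good

variable {M₀ : ℕ} [NeZero M₀] [NeZero p] {hp : p.Prime} {hpM : ¬ p ∣ M₀}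
  {hB : B.LiesOverPrime p} {V L : AddSubgroup (JTors (M₀ * p) (p ^ 1))}

/-- **(1)** `L ≤ K`: the cyclotomic line lies in `KmTors`. -/
theorem le_KmTors (h : GeoShape p (M₀ * p) B V L) (hp2 : p ≠ 2) :
    L ≤ KmTors M₀ p hp hpM B hB (p ^ 1) :=
  Fermat.Agent.S40x.Geo.LineInK.le_KmTors_of_cyclo hp2 L (fun s _ => nsmul_eq_zero s) h.hc

/-- the generator lies in `KmTors`. -/
theorem generator_mem_KmTors (h : GeoShape p (M₀ * p) B V L) (hp2 : p ≠ 2)
    {l₀ : JTors (M₀ * p) (p ^ 1)} (hl₀ : l₀ ∈ L) : l₀ ∈ KmTors M₀ p hp hpM B hB (p ^ 1) :=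
  le_KmTors h hp2 hl₀

/-- **(4)** `V` is not contained in `KmTors`. -/
theorem not_le_KmTors (h : GeoShape p (M₀ * p) B V L) (hp2 : p ≠ 2) (h4 : 4 ∣ M₀) :
    ¬ V ≤ KmTors M₀ p hp hpM B hB (p ^ 1) :=
  Fermat.Agent.S40x.Geo.NoTrivKm.not_le_KmTors M₀ p hp hp2 hpM h4 B hB 1 h.le h.ne h.hb

/-- **(4)**, existential form: some `x ∈ V` is not in `KmTors`. -/
theorem exists_not_mem_KmTors (h : GeoShape p (M₀ * p) B V L) (hp2 : p ≠ 2) (h4 : 4 ∣ M₀) :
    ∃ x ∈ V, x ∉ KmTors M₀ p hp hpM B hB (p ^ 1) := by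
  by_contra hcon
  apply not_le_KmTors (hp := hp) (hpM := hpM) (hB := hB) h hp2 h4
  intro x hx
  by_contra hx'
  exact hcon ⟨x, hx, hx'⟩

end Good

end Fermat.Agent.S40x.Geo.ShapeFacts
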