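import Fermat.Agent.S40x.A.S44SkeletonV2
import Fermat.Agent.S40x.A.S44OfGeo
import Fermat.Agent.S40x.Level.G0
import Fermat.Agent.S40x.Geo.NoTrivKm

/-!
# P-S44, GEO' (helper95): `LeafGEO'` from the single statement "`V̂ ≤ K`" at the good level

`LeafGEO'` (`S40x/A/S44SkeletonV2`, the only open leaf of `S40x/A/S44OfGeo.s44_of_geo`) is stated
at level `N = M' p` in the vocabulary `tData`.  This file performs the two LANDED outer steps of
helper22's skeleton (board `S44_GEO`):

* **G0** (helper60, `S40x/Level/G0.g0`): transfer of `(V, L)`, its local shape and the elementwise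
  Hecke eigen-relations to the good level `N̂ = lcm M' 4 * p`;
* **G5** (helper22, `S40x/Geo/NoTrivKm.not_le_KmTors`, = S33 (ii)): `V̂ ≤ KmTors` is impossible.

What remains (steps G1-G4 = C3 + C1 + C2) is the closed statement `LeafInK`:
under `hNE`, `hnew`, for every pair `(V, L)` of the local shape at level `M' p` whose elements
are eigenvectors of the `T_ℓ` (`ℓ ∉ S`) with eigenvalues `θ(T_ℓ)`: `π^* V ≤ KmTors` at the good level.

`leafGEO'_of_leafInK : LeafInK → LeafGEO'`, and `s44_of_leafInK : LeafInK → <frozen S44>`.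
-/

set_option autoImplicit false
set_option linter.unusedSectionVars false
set_option linter.unusedVariables false
set_option linter.style.haveILetI false

noncomputable section

namespace Fermat.Agent.S40x.Geo.TopSkeleton

open CuspForm ModularCurve AlgebraicCurve
open Fermat.Agent.Gateway.S31Red Fermat.Agent.S33x.KummerPn
open Fermat.Agent.S40x.Level.G0 Fermat.Agent.S40x.A.S44Skeleton2 Fermat.Agent.S40x.A.S44SkeletonV2
open Fermat.Agent.S33x.Consumer.LevelTransport

local notation "Qb" => AlgebraicClosure ℚ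

attribute [local instance] Fermat.Agent.S40x.A.CopyInTorsion.zmodModule

/-- **The remaining statement of GEO'** (steps G1-G4 of board `S44_GEO`): `(V, L)` a pair of
subgroups of `J₀(M' p)[p]` of the local shape (`GeoShape`), `V` consisting of `θ`-eigenvectors
(`EigenAt`, elementwise, for the primes `ℓ ∉ S`), `θ` non-Eisenstein (`hNE`) and not `p`-old
(`hnew`): then the pull-back `V̂ = π^* V` to the good level `N̂ = lcm M' 4 * p` lies in `KmTors`.
(The good-level shape and eigen-relations of `(V̂, L̂)` follow by the landed `GeoShape.map`,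
`EigenAt.map`; the statement keeps `V` itself because the descent step of C2 uses that the Kummer
functions of `V̂` come from level `M' p`.) -/
def LeafInK : Prop :=
  ∀ (p M' : ℕ) [NeZero M'] [NeZero p] [NeZero (M' * p)] (hp : p.Prime) (hp5 : 5 ≤ p)
    (hp2 : p ≠ 2) (hpM' : ¬ p ∣ M')
    (S : Finset ℕ) (hpS : p ∈ S) (h2S : 2 ∈ S)
    (hNS : ∀ q : ℕ, q.Prime → q ∣ M' * p → q ∈ S)
    (θ : heckeAlgebra (M' * p) 2 (↑S : Set ℕ) →+* ZMod p),
    (∃ (l : ℕ) (hl : l.Prime) (hlN : ¬ l ∣ M' * p) (hlS : l ∉ (↑S : Set ℕ)),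
      θ (heckeAlgebra.T hl hlN hlS) ≠ (l : ZMod p) + 1) →
    (∃ h : heckeAlgebra (M' * p) 2 (↑S : Set ℕ), θ h ≠ 0 ∧
      Fermat.Agent.S35x.levelHom (N := M') (q := p) (S := (↑S : Set ℕ))
        (fun q hq hqN => Finset.mem_coe.mpr (hNS q hq hqN)) h = 0) →
    ∀ (B : ValuationSubring Qb) (hB : B.LiesOverPrime p)
      (V L : AddSubgroup (JTors (M' * p) (p ^ 1))),
      GeoShape p (M' * p) B V L →
      EigenAt (M' * p) (p ^ 1) S (thetaVal θ) V →
      haveI := neZero_lcm_four M'
      V.map (pullbackTors (Nat.mul_dvd_mul_right (Nat.dvd_lcm_left M' 4) p) (p ^ 1)) ≤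
        KmTors (Nat.lcm M' 4) p hp (not_dvd_lcm_four hp hp2 hpM') B hB (p ^ 1)

/-- **GEO' from `LeafInK`** (G0 + G5). -/
theorem leafGEO'_of_leafInK (hK : LeafInK) : LeafGEO' := by
  intro p M' _ _ _ _ hp hp5 hpM' S hpS h2S hNS θ hNE hnew V L hLV hLne hLcard hVgal hVθ B hB hb hc hd
  have hp2 : p ≠ 2 := by omega
  haveI := neZero_lcm_four M'
  have hshape : GeoShape p (M' * p) B V L := ⟨hLV, hLne, hLcard, hVgal, hb, hc, hd⟩
  have heig : EigenAt (M' * p) (p ^ 1) S (thetaVal θ) V :=
    eigenAt_of_eta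
      (Fermat.Agent.Gateway.Export.heckeTorsionAction (M' * p)
        (Fermat.Agent.Gateway.Export.coreInputs (M' * p)
          (Fermat.Agent.Gateway.Export.d5Input (M' * p))) S hNS)
      (pow_pos hp.pos 1)
      (instMod := Fermat.Agent.S40x.A.CopyInTorsion.zmodModule (tData hp hpS hNS))
      θ V hVθ
  have hsh := hshape.map (M := Nat.lcm M' 4 * p) (goodLevel_eq (M' := M') hp hp2)
  have hVK := hK p M' hp hp5 hp2 hpM' S hpS h2S hNS θ hNE hnew B hB V L hshape heig
  exact Fermat.Agent.S40x.Geo.NoTrivKm.not_le_KmTors (Nat.lcm M' 4) p hp hp2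
    (not_dvd_lcm_four hp hp2 hpM') (four_dvd_lcm M') B hB 1 hsh.le hsh.ne hsh.hb hVK

/-- **The frozen statement S44 from `LeafInK`** (everything else is landed). -/
theorem s44_of_leafInK (hK : LeafInK)
    (P : FreyPackage) {N : ℕ} (hcond : P.IsConductorLevel N) (hpN : P.p ∣ N)
    (hirr : WeierstrassCurve.Affine.Point.GaloisRepIsIrreducible (K := AlgebraicClosure ℚ) ℚ
      P.freyCurve P.p)
    (hmod : P.ModularRepOfLevel N) :
    ∃ M : ℕ, M ∣ N ∧ ¬ P.p ∣ M ∧ P.ModularRepOfLevel M :=
  Fermat.Agent.S40x.A.S44OfGeo.s44_of_geo (leafGEO'_of_leafInK hK) P hcond hpN hirr hmod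

end Fermat.Agent.S40x.Geo.TopSkeleton
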